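import Mathlib
import Fermat.Agent.Jac.Kappa
import Fermat.Agent.S22.Gamma0FG
import Fermat.Prelude.Def_ModularCurve_PeriodMap

/-!
# PROGRAMME III (S48), block X1-KUM, leaf KUM-0 (helper9): lattice characters for ANY `Γ ≤ SL(2,ℤ)`

The `Γ`-generic port of `Jac/KappaLam(C).lean` (written for `Γ₀(N)`) and of `Jac/LamSpan.lean`:

* `LamOf Γ := parabolicHoms ℤ Γ ℤ` (`Lam₁ M := LamOf (Gamma1 M)`; `LamOf (Gamma0 N)` is main's
  `Lam N` by `rfl`);
* `goodChar Γ` : the unitary characters of `Γ` which are trivial on the elements of trace of absolute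
  value `≤ 2` (parabolic and elliptic elements and `± 1`);
* `lamOf_apply_eq_zero` : an integral parabolic homomorphism vanishes on these elements;
* `charOf ζ l : γ ↦ ζ ^ l γ`, `charOf_mem_goodChar`, `charHom ζ : LamOf Γ →+ Additive (Γ →* ℂˣ)`,
  `charHom_eq_zero_iff` : for `ζ` a primitive `m`-th root of unity, the character of `l` is trivial
  iff `l ∈ m • LamOf Γ`;
* `kappaLamOf` : the Kummer homomorphism `LamOf Γ →+ Pic0 ℂ F` attached to abstract Kummer data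
  (`Jac/Kappa.lean`) with `Good = goodChar Γ`, its kernel `m • LamOf Γ`, `m • κ = 0`;
* `finite_LamOf` : `LamOf Γ` is a finitely generated `ℤ`-module for `Γ` of finite index.
-/

set_option autoImplicit false
set_option linter.unusedSectionVars false

open UpperHalfPlane AlgebraicCurve ModularCurve.Period
open scoped MatrixGroups

noncomputable section

namespace Fermat.Agent.DS.Kum

open Fermat.Agent.Jac

variable {Γ : Subgroup SL(2, ℤ)}

/-- The lattice of integral parabolic homomorphisms of `Γ`. -/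
abbrev LamOf (Γ : Subgroup SL(2, ℤ)) : Submodule ℤ (Additive ↥Γ →+ ℤ) := parabolicHoms ℤ Γ ℤ

/-! ### Elements of small trace have finite order -/

theorem matrix_sq_eq_trace (M : Matrix (Fin 2) (Fin 2) ℤ) (hdet : M.det = 1) :
    M ^ 2 = M.trace • M - 1 := by
  rw [Matrix.det_fin_two] at hdet
  rw [Matrix.trace_fin_two, sq]
  ext i j
  fin_cases i <;> fin_cases j
  · simp only [Fin.zero_eta, Matrix.mul_apply, Fin.sum_univ_two, Matrix.sub_apply,
      Matrix.smul_apply, Matrix.one_apply_eq, smul_eq_mul]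
    linear_combination (-1 : ℤ) * hdet
  · simp only [Fin.zero_eta, Fin.mk_one, Matrix.mul_apply, Fin.sum_univ_two, Matrix.sub_apply,
      Matrix.smul_apply, smul_eq_mul, ne_eq, zero_ne_one, not_false_eq_true, Matrix.one_apply_ne]
    ring
  · simp only [Fin.zero_eta, Fin.mk_one, Matrix.mul_apply, Fin.sum_univ_two, Matrix.sub_apply,
      Matrix.smul_apply, smul_eq_mul, ne_eq, one_ne_zero, not_false_eq_true, Matrix.one_apply_ne]
    ring
  · simp only [Fin.mk_one, Matrix.mul_apply, Fin.sum_univ_two, Matrix.sub_apply,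
      Matrix.smul_apply, Matrix.one_apply_eq, smul_eq_mul]
    linear_combination (-1 : ℤ) * hdet

theorem matrix_pow_twelve (M : Matrix (Fin 2) (Fin 2) ℤ) (hdet : M.det = 1)
    (ht : |M.trace| ≤ 1) : M ^ 12 = 1 := by
  have h2 := matrix_sq_eq_trace M hdet
  have ht' : M.trace = 0 ∨ M.trace = 1 ∨ M.trace = -1 := by
    have := abs_le.mp ht
    omega
  rcases ht' with h | h | h
  · rw [h, zero_smul, zero_sub] at h2
    have : M ^ 12 = (M ^ 2) ^ (2 * 3) := by rw [← pow_mul]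
    rw [this, h2, pow_mul, neg_one_sq, one_pow]
  · rw [h, one_smul] at h2
    have h3 : M ^ 3 = -1 := by
      have : M ^ 3 = M ^ 2 * M := by rw [pow_succ]
      rw [this, h2, sub_mul, one_mul, ← sq, h2]
      abel
    have : M ^ 12 = (M ^ 3) ^ (2 * 2) := by rw [← pow_mul]
    rw [this, h3, pow_mul, neg_one_sq, one_pow]
  · rw [h, neg_one_smul] at h2
    have h3 : M ^ 3 = 1 := by
      have : M ^ 3 = M ^ 2 * M := by rw [pow_succ]
      rw [this, h2, sub_mul, one_mul, neg_mul, ← sq, h2]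
      abel
    have : M ^ 12 = (M ^ 3) ^ 4 := by rw [← pow_mul]
    rw [this, h3, one_pow]

theorem pow_twelve_eq_one_of_trace (γ : ↥Γ)
    (ht : |((γ : SL(2, ℤ)) : Matrix (Fin 2) (Fin 2) ℤ).trace| ≤ 1) : γ ^ 12 = 1 := by
  apply Subtype.ext
  apply Subtype.ext
  rw [SubgroupClass.coe_pow, Matrix.SpecialLinearGroup.coe_pow, OneMemClass.coe_one,
    Matrix.SpecialLinearGroup.coe_one]
  exact matrix_pow_twelve _ (Matrix.SpecialLinearGroup.det_coe _) ht

/-- An integral parabolic homomorphism vanishes on all elements of trace of absolute value `≤ 2`. -/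
theorem lamOf_apply_eq_zero {l : Additive ↥Γ →+ ℤ} (hl : l ∈ LamOf Γ) (γ : ↥Γ)
    (ht : |((γ : SL(2, ℤ)) : Matrix (Fin 2) (Fin 2) ℤ).trace| ≤ 2) :
    l (Additive.ofMul γ) = 0 := by
  rcases (abs_le.mp ht) with ⟨h1, h2⟩
  by_cases h : ((γ : SL(2, ℤ)) : Matrix (Fin 2) (Fin 2) ℤ).trace ^ 2 = 4
  · exact hl γ h
  · have ht1 : |((γ : SL(2, ℤ)) : Matrix (Fin 2) (Fin 2) ℤ).trace| ≤ 1 := by
      rw [abs_le]
      constructor
      · by_contra hc
        apply h
        have : ((γ : SL(2, ℤ)) : Matrix (Fin 2) (Fin 2) ℤ).trace = -2 := by omega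
        rw [this]; norm_num
      · by_contra hc
        apply h
        have : ((γ : SL(2, ℤ)) : Matrix (Fin 2) (Fin 2) ℤ).trace = 2 := by omega
        rw [this]; norm_num
    have h12 := pow_twelve_eq_one_of_trace γ ht1
    have : l (Additive.ofMul (γ ^ 12)) = 12 • l (Additive.ofMul γ) := by
      rw [ofMul_pow, map_nsmul]
    rw [h12, ofMul_one, map_zero] at this
    have h' : (12 : ℤ) * l (Additive.ofMul γ) = 0 := by
      rw [this]; simp
    rcases mul_eq_zero.mp h' with h0 | h0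
    · norm_num at h0
    · exact h0

/-! ### Good characters -/

/-- Good characters of `Γ`: unitary, and trivial on the elements whose trace has absolute value
`≤ 2` (parabolic and elliptic elements and `± 1`). -/
def goodChar (Γ : Subgroup SL(2, ℤ)) : Subgroup (↥Γ →* ℂˣ) where
  carrier := {χ | (∀ γ, ‖((χ γ : ℂˣ) : ℂ)‖ = 1) ∧
    ∀ γ : ↥Γ, |((γ : SL(2, ℤ)) : Matrix (Fin 2) (Fin 2) ℤ).trace| ≤ 2 → χ γ = 1}
  one_mem' := ⟨fun γ => by simp, fun _ _ => rfl⟩
  mul_mem' := by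
    rintro χ χ' ⟨h1, h2⟩ ⟨h1', h2'⟩
    refine ⟨fun γ => ?_, fun γ hγ => ?_⟩
    · rw [MonoidHom.mul_apply, Units.val_mul, norm_mul, h1, h1', one_mul]
    · rw [MonoidHom.mul_apply, h2 γ hγ, h2' γ hγ, one_mul]
  inv_mem' := by
    rintro χ ⟨h1, h2⟩
    refine ⟨fun γ => ?_, fun γ hγ => ?_⟩
    · rw [MonoidHom.inv_apply, Units.val_inv_eq_inv_val, norm_inv, h1, inv_one]
    · rw [MonoidHom.inv_apply, h2 γ hγ, inv_one]

theorem mem_goodChar {χ : ↥Γ →* ℂˣ} : χ ∈ goodChar Γ ↔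
    (∀ γ, ‖((χ γ : ℂˣ) : ℂ)‖ = 1) ∧
      ∀ γ : ↥Γ, |((γ : SL(2, ℤ)) : Matrix (Fin 2) (Fin 2) ℤ).trace| ≤ 2 → χ γ = 1 :=
  Iff.rfl

/-- A good character is trivial on the upper triangular elements. -/
theorem goodChar_apply_of_lower_left_eq_zero {χ : ↥Γ →* ℂˣ}
    (hχ : χ ∈ goodChar Γ) (γ : ↥Γ) (hγ : (γ : SL(2, ℤ)) 1 0 = 0) : χ γ = 1 := by
  apply hχ.2 γ
  have hdet := Matrix.SpecialLinearGroup.det_coe (γ : SL(2, ℤ))
  rw [Matrix.det_fin_two] at hdet
  have h10 : ((γ : SL(2, ℤ)) : Matrix (Fin 2) (Fin 2) ℤ) 1 0 = 0 := hγ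
  rw [h10, mul_zero, sub_zero] at hdet
  rw [Matrix.trace_fin_two]
  rcases Int.eq_one_or_neg_one_of_mul_eq_one' hdet with ⟨h0, h1⟩ | ⟨h0, h1⟩
  · rw [h0, h1]; norm_num
  · rw [h0, h1]; norm_num

/-! ### The character attached to an integral homomorphism -/

/-- The character `γ ↦ ζ ^ l(γ)`. -/
def charOf (ζ : ℂˣ) (l : Additive ↥Γ →+ ℤ) : ↥Γ →* ℂˣ where
  toFun γ := ζ ^ l (Additive.ofMul γ)
  map_one' := by rw [ofMul_one, map_zero, zpow_zero]
  map_mul' γ δ := by rw [ofMul_mul, map_add, zpow_add]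

@[simp] theorem charOf_apply (ζ : ℂˣ) (l : Additive ↥Γ →+ ℤ) (γ : ↥Γ) :
    charOf ζ l γ = ζ ^ l (Additive.ofMul γ) := rfl

theorem charOf_add (ζ : ℂˣ) (l l' : Additive ↥Γ →+ ℤ) :
    charOf ζ (l + l') = charOf ζ l * charOf ζ l' := by
  ext γ
  rw [charOf_apply, MonoidHom.mul_apply, charOf_apply, charOf_apply, AddMonoidHom.add_apply,
    zpow_add]

theorem charOf_zero (ζ : ℂˣ) : charOf ζ (0 : Additive ↥Γ →+ ℤ) = 1 := by
  ext γ
  rw [charOf_apply, AddMonoidHom.zero_apply, zpow_zero, MonoidHom.one_apply]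

theorem charOf_pow_eq_one {ζ : ℂˣ} {m : ℕ} (hζ : ζ ^ m = 1) (l : Additive ↥Γ →+ ℤ) :
    charOf ζ l ^ m = 1 := by
  ext γ
  rw [MonoidHom.pow_apply, charOf_apply, MonoidHom.one_apply, ← zpow_natCast, ← zpow_mul,
    mul_comm, zpow_mul, zpow_natCast, hζ, one_zpow]

theorem charOf_mem_goodChar {ζ : ℂˣ} {m : ℕ} (hm : 0 < m) (hζ : ζ ^ m = 1)
    {l : Additive ↥Γ →+ ℤ} (hl : l ∈ LamOf Γ) : charOf ζ l ∈ goodChar Γ := by
  refine ⟨fun γ => ?_, fun γ hγ => ?_⟩
  · have h1 : ((charOf ζ l γ : ℂˣ) : ℂ) ^ m = 1 := by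
      have := congrArg (fun χ : ↥Γ →* ℂˣ => ((χ γ : ℂˣ) : ℂ)) (charOf_pow_eq_one hζ l)
      simpa using this
    exact Complex.norm_eq_one_of_pow_eq_one h1 hm.ne'
  · rw [charOf_apply, lamOf_apply_eq_zero hl γ hγ, zpow_zero]

/-- The character homomorphism on the lattice. -/
def charHom (ζ : ℂˣ) : ↥(LamOf Γ) →+ Additive (↥Γ →* ℂˣ) where
  toFun l := Additive.ofMul (charOf ζ (l : Additive ↥Γ →+ ℤ))
  map_zero' := by rw [Submodule.coe_zero, charOf_zero, ofMul_one]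
  map_add' l l' := by rw [Submodule.coe_add, charOf_add, ofMul_mul]

@[simp] theorem toMul_charHom (ζ : ℂˣ) (l : ↥(LamOf Γ)) :
    Additive.toMul (charHom ζ l) = charOf ζ (l : Additive ↥Γ →+ ℤ) := rfl

/-- The character of `l` is trivial iff `l` is divisible by `m` in the lattice. -/
theorem charHom_eq_zero_iff {ζ : ℂˣ} {m : ℕ} (hm : 0 < m) (hζ : IsPrimitiveRoot ζ m)
    (l : ↥(LamOf Γ)) : charHom ζ l = 0 ↔ ∃ l' : ↥(LamOf Γ), l = m • l' := by
  constructor
  · intro h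
    have h1 : ∀ γ : ↥Γ, (m : ℤ) ∣ (l : Additive ↥Γ →+ ℤ) (Additive.ofMul γ) := by
      intro γ
      have h2 : charOf ζ (l : Additive ↥Γ →+ ℤ) γ = 1 := by
        have : charOf ζ (l : Additive ↥Γ →+ ℤ) = 1 := by
          have := congrArg Additive.toMul h
          simpa using this
        rw [this, MonoidHom.one_apply]
      rw [charOf_apply] at h2
      exact (hζ.zpow_eq_one_iff_dvd _).mp h2
    have hm0 : (m : ℤ) ≠ 0 := by exact_mod_cast hm.ne'
    let l'fun : Additive ↥Γ →+ ℤ :=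
      { toFun := fun γ => (l : Additive ↥Γ →+ ℤ) γ / (m : ℤ)
        map_zero' := by rw [map_zero, Int.zero_ediv]
        map_add' := fun γ δ => by
          rw [map_add]
          exact Int.add_ediv_of_dvd_left (h1 (Additive.toMul γ)) }
    have hl' : l'fun ∈ LamOf Γ := by
      intro γ hγ
      show (l : Additive ↥Γ →+ ℤ) (Additive.ofMul γ) / (m : ℤ) = 0
      rw [l.2 γ hγ, Int.zero_ediv]
    refine ⟨⟨l'fun, hl'⟩, ?_⟩
    apply Subtype.ext
    rw [Submodule.coe_smul_of_tower]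
    ext γ
    show (l : Additive ↥Γ →+ ℤ) γ = m • ((l : Additive ↥Γ →+ ℤ) γ / (m : ℤ))
    rw [nsmul_eq_mul]
    exact (Int.mul_ediv_cancel' (h1 (Additive.toMul γ))).symm
  · rintro ⟨l', rfl⟩
    rw [map_nsmul]
    have : m • charHom ζ l' = Additive.ofMul (charOf ζ (l' : Additive ↥Γ →+ ℤ) ^ m) :=
      (ofMul_pow m (charOf ζ (l' : Additive ↥Γ →+ ℤ))).symm
    rw [this, charOf_pow_eq_one hζ.pow_eq_one, ofMul_one]

/-- primitive roots of unity in `ℂˣ` -/
theorem exists_primitiveRoot_unitsC {m : ℕ} (hm : 0 < m) : ∃ ζ : ℂˣ, IsPrimitiveRoot ζ m := by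
  have h := Complex.isPrimitiveRoot_exp m hm.ne'
  have hu : IsUnit (Complex.exp (2 * Real.pi * Complex.I / m)) := (Complex.exp_ne_zero _).isUnit
  refine ⟨hu.unit, IsPrimitiveRoot.coe_units_iff.mp ?_⟩
  rw [IsUnit.unit_spec]
  exact h

/-! ### The Kummer homomorphism on the lattice -/

section KappaLamOf

variable {F : Type*} [Field F] [Algebra ℂ F] [HasPrincipalDivisors ℂ F]
  {𝕄 : Type*} [Field 𝕄] [Algebra ℂ 𝕄] [MulSemiringAction ↥Γ 𝕄]

/-- **The Kummer homomorphism on the lattice `LamOf Γ`** attached to Kummer data for `Γ` with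
good characters `goodChar Γ` and a primitive `m`-th root of unity `ζ`. -/
def kappaLamOf (D : KummerData ℂ F 𝕄 ↥Γ) (hD : D.Good = goodChar Γ) {m : ℕ}
    (hm : 0 < m) {ζ : ℂˣ} (hζ : IsPrimitiveRoot ζ m) : ↥(LamOf Γ) →+ Pic0 ℂ F :=
  D.kappaHom hm (charHom ζ)
    (fun l => by rw [hD, toMul_charHom]; exact charOf_mem_goodChar hm hζ.pow_eq_one l.2)
    (fun l => by rw [toMul_charHom]; exact charOf_pow_eq_one hζ.pow_eq_one _)

theorem kappaLamOf_apply (D : KummerData ℂ F 𝕄 ↥Γ) (hD : D.Good = goodChar Γ) {m : ℕ}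
    (hm : 0 < m) {ζ : ℂˣ} (hζ : IsPrimitiveRoot ζ m) (l : ↥(LamOf Γ)) :
    kappaLamOf D hD hm hζ l = D.kappa m (charOf ζ (l : Additive ↥Γ →+ ℤ)) := rfl

/-- The kernel of the Kummer homomorphism is `m • LamOf Γ`. -/
theorem kappaLamOf_eq_zero_iff (D : KummerData ℂ F 𝕄 ↥Γ) (hD : D.Good = goodChar Γ)
    (hF : Red.RiemannPkg ℂ F) {m : ℕ} (hm : 0 < m) {ζ : ℂˣ} (hζ : IsPrimitiveRoot ζ m)
    (l : ↥(LamOf Γ)) : kappaLamOf D hD hm hζ l = 0 ↔ ∃ l' : ↥(LamOf Γ), l = m • l' := by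
  rw [kappaLamOf, KummerData.kappaHom_eq_zero_iff hF, charHom_eq_zero_iff hm hζ]

theorem nsmul_kappaLamOf (D : KummerData ℂ F 𝕄 ↥Γ) (hD : D.Good = goodChar Γ) {m : ℕ}
    (hm : 0 < m) {ζ : ℂˣ} (hζ : IsPrimitiveRoot ζ m) (l : ↥(LamOf Γ)) :
    m • kappaLamOf D hD hm hζ l = 0 :=
  KummerData.nsmul_kappaHom hm _ _ _ l

end KappaLamOf

/-! ### Finite generation -/

section Finite

variable (Γ) [Γ.FiniteIndex]

theorem addGroupFG_additive : AddGroup.FG (Additive ↥Γ) :=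
  GroupFG.iff_add_fg.mp (Fermat.Agent.S22.groupFG_of_finiteIndex Γ)

/-- `Hom(Γ, ℤ)` is a finitely generated `ℤ`-module. -/
theorem finite_hom_int : Module.Finite ℤ (Additive ↥Γ →+ ℤ) := by
  obtain ⟨S, hS⟩ := (AddGroup.fg_def).mp (addGroupFG_additive Γ)
  let ev : (Additive ↥Γ →+ ℤ) →ₗ[ℤ] (S → ℤ) :=
    { toFun := fun φ s => φ s
      map_add' := fun _ _ => rfl
      map_smul' := fun _ _ => rfl }
  have hev : Function.Injective ev := by
    intro φ ψ h
    refine AddMonoidHom.eq_of_eqOn_dense hS fun s hs => ?_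
    exact congrFun h ⟨s, hs⟩
  exact Module.Finite.of_injective ev hev

/-- The lattice `LamOf Γ` is a finitely generated `ℤ`-module. -/
theorem finite_LamOf : Module.Finite ℤ (LamOf Γ) := by
  have := finite_hom_int Γ
  exact Module.Finite.of_injective (LamOf Γ).subtype Subtype.val_injective

end Finite

end Fermat.Agent.DS.Kum
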