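import Mathlib
import Fermat.Agent.Jac.HeckeReps
import Fermat.Agent.DS.Kum.LamChar

/-!
# PROGRAMME III (S48), block X1-KUM, leaf KUM-1a (helper9): coset systems and transfer operators
for ANY `Γ ≤ SL(2,ℤ)`

The `Γ`-generic port of the `Γ₀(N)`-layer of `Jac/HeckeReps.lean` (the abstract layer
`Jac/Transfer.lean` is already generic):

* `embOf Γ : Γ →* GL₂(ℝ)` (main's `embG N` is `embOf (Gamma0 N)` by `rfl`);
* `transfer_mem_parabolicHomsOf` : the transfer of a coset system of `Γ` in `GL₂(ℝ)` preserves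
  parabolic homomorphisms (torsion free coefficients);
* `transferLam D : LamOf Γ →ₗ[ℤ] LamOf Γ` : the operator on the lattice;
* `castHomOf`, `transfer_castHomOf` : the inclusion `Hom(Γ, ℤ) → Hom(Γ, ℂ)` commutes with transfers;
* `exists_eq_sum_castHomOf` : a complex parabolic homomorphism is a `ℂ`-linear combination of
  elements of the lattice (`Γ` finitely generated);
* `CosetReps.leftMul` : the left translate `w · D` of a coset system by an element `w` normalising
  `Γ`, and `transfer_leftMul : T_{wD} φ = T_D (φ ∘ conj_w)`;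
* `compAut a : Hom(Γ, A) →+ Hom(Γ, A)`, `φ ↦ φ ∘ a`, for an automorphism `a` of `Γ`.
-/

set_option autoImplicit false
set_option linter.unusedSectionVars false
set_option linter.style.haveILetI false

open Matrix.SpecialLinearGroup ModularCurve.Period
open scoped MatrixGroups

noncomputable section

namespace Fermat.Agent.DS.Kum

open Fermat.Agent.Jac

variable {Γ : Subgroup SL(2, ℤ)}

/-- the inclusion `Γ → GL₂(ℝ)` -/
def embOf (Γ : Subgroup SL(2, ℤ)) : ↥Γ →* GL (Fin 2) ℝ := (mapGL ℝ).comp Γ.subtype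

@[simp] theorem embOf_apply (γ : ↥Γ) : embOf Γ γ = mapGL ℝ (γ : SL(2, ℤ)) := rfl

theorem embOf_injective (Γ : Subgroup SL(2, ℤ)) : Function.Injective (embOf Γ) :=
  (mapGL_injective (R := ℤ) (S := ℝ)).comp Subtype.val_injective

theorem embOf_Gamma0 (N : ℕ) : embOf (CongruenceSubgroup.Gamma0 N) = embG N := rfl

/-! ### Transfers preserve parabolic homomorphisms -/

section Parabolic

variable {ι : Type*} [Fintype ι]

/-- **The transfer operators preserve parabolic homomorphisms** (torsion free coefficients), for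
any `Γ ≤ SL(2,ℤ)`. -/
theorem transfer_mem_parabolicHomsOf (D : CosetReps (embOf Γ) ι) (R : Type*) [Semiring R]
    {A : Type*} [AddCommGroup A] [Module R A]
    (htf : ∀ (n : ℕ) (x : A), n ≠ 0 → n • x = 0 → x = 0)
    {φ : Additive ↥Γ →+ A} (hφ : φ ∈ parabolicHoms R Γ A) :
    D.transfer φ ∈ parabolicHoms R Γ A := by
  rw [mem_parabolicHoms_iff] at hφ ⊢
  intro γ hγ
  refine D.transfer_apply_eq_zero_of_pred htf
    (fun γ : ↥Γ => ((γ : SL(2, ℤ)) : Matrix (Fin 2) (Fin 2) ℤ).trace ^ 2 = 4)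
    ?_ ?_ φ (fun γ h => hφ γ h) γ hγ
  · intro γ h r
    have : (((γ ^ r : ↥Γ) : SL(2, ℤ)) : Matrix (Fin 2) (Fin 2) ℤ) =
        ((γ : SL(2, ℤ)) : Matrix (Fin 2) (Fin 2) ℤ) ^ r := by
      rw [Subgroup.coe_pow, Matrix.SpecialLinearGroup.coe_pow]
    rw [this]
    exact trace_pow_sq_eq_four _ (γ : SL(2, ℤ)).det_coe h r
  · intro γ c g h hc
    have h1 : ((embOf Γ c : GL (Fin 2) ℝ) : Matrix (Fin 2) (Fin 2) ℝ).trace =
        ((embOf Γ γ : GL (Fin 2) ℝ) : Matrix (Fin 2) (Fin 2) ℝ).trace := by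
      rw [hc, Units.val_mul, Units.val_mul, Matrix.trace_units_conj]
    rw [embOf_apply, embOf_apply, val_mapGL, val_mapGL, Matrix.trace_fin_two_of,
      Matrix.trace_fin_two_of] at h1
    have h2 : ((c : SL(2, ℤ)) : Matrix (Fin 2) (Fin 2) ℤ).trace =
        ((γ : SL(2, ℤ)) : Matrix (Fin 2) (Fin 2) ℤ).trace := by
      rw [Matrix.trace_fin_two, Matrix.trace_fin_two]
      exact_mod_cast h1
    show ((c : SL(2, ℤ)) : Matrix (Fin 2) (Fin 2) ℤ).trace ^ 2 = 4
    rw [h2]
    exact h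

/-- The operator on the lattice `LamOf Γ` attached to a coset system. -/
def transferLam (D : CosetReps (embOf Γ) ι) : ↥(LamOf Γ) →ₗ[ℤ] ↥(LamOf Γ) :=
  (D.transfer : (Additive ↥Γ →+ ℤ) →+ _).toIntLinearMap.restrict
    (fun _ hφ => transfer_mem_parabolicHomsOf D ℤ int_torsionFree hφ)

@[simp] theorem coe_transferLam_apply (D : CosetReps (embOf Γ) ι) (l : ↥(LamOf Γ)) :
    ((transferLam D l : ↥(LamOf Γ)) : Additive ↥Γ →+ ℤ) =
      D.transfer (l : Additive ↥Γ →+ ℤ) := rfl

end Parabolic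

/-! ### The inclusion `Hom(Γ, ℤ) → Hom(Γ, ℂ)` -/

/-- the inclusion `Hom(Γ, ℤ) → Hom(Γ, ℂ)` -/
def castHomOf (Γ : Subgroup SL(2, ℤ)) : (Additive ↥Γ →+ ℤ) →+ (Additive ↥Γ →+ ℂ) where
  toFun l := (Int.castAddHom ℂ).comp l
  map_zero' := by ext; simp
  map_add' a b := by ext; simp

@[simp] theorem castHomOf_apply (l : Additive ↥Γ →+ ℤ) (γ : Additive ↥Γ) :
    castHomOf Γ l γ = ((l γ : ℤ) : ℂ) := rfl

theorem castHomOf_injective (Γ : Subgroup SL(2, ℤ)) : Function.Injective (castHomOf Γ) := by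
  intro l l' h
  refine AddMonoidHom.ext fun γ => ?_
  have := congrArg (fun φ : Additive ↥Γ →+ ℂ => φ γ) h
  simp only [castHomOf_apply] at this
  exact_mod_cast this

/-- `castHomOf` intertwines the transfer operators. -/
theorem transfer_castHomOf {ι : Type*} [Fintype ι] (D : CosetReps (embOf Γ) ι)
    (l : Additive ↥Γ →+ ℤ) :
    D.transfer (castHomOf Γ l) = castHomOf Γ (D.transfer l) :=
  D.transfer_comp (Int.castAddHom ℂ) l

theorem castHomOf_mem_parabolicHoms {l : Additive ↥Γ →+ ℤ} (hl : l ∈ LamOf Γ) :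
    castHomOf Γ l ∈ parabolicHoms ℂ Γ ℂ := by
  intro γ hγ
  rw [castHomOf_apply, hl γ hγ, Int.cast_zero]

/-- Every complex valued parabolic homomorphism of a finitely generated `Γ` is a finite
`ℂ`-linear combination of elements of the lattice `LamOf Γ`. -/
theorem exists_eq_sum_castHomOf [Γ.FiniteIndex] {φ : Additive ↥Γ →+ ℂ}
    (hφ : IsParabolicHom Γ φ) :
    ∃ (n : ℕ) (c : Fin n → ℂ) (l : Fin n → ↥(LamOf Γ)),
      φ = ∑ k, c k • castHomOf Γ (l k : Additive ↥Γ →+ ℤ) := by
  classical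
  set A : AddSubgroup ℂ := AddMonoidHom.range φ with hA
  have hAfg : AddGroup.FG A := by
    haveI := addGroupFG_additive Γ
    exact AddGroup.fg_of_surjective (f := φ.rangeRestrict) φ.rangeRestrict_surjective
  haveI : Module.Finite ℤ A := Module.Finite.iff_addGroup_fg.mpr hAfg
  haveI : Module.IsTorsionFree ℤ A := inferInstance
  haveI : Module.Free ℤ A := Module.free_of_finite_type_torsion_free'
  let b := Module.finBasis ℤ A
  set n := Module.finrank ℤ A with hn
  let φ' : Additive ↥Γ →+ A := φ.rangeRestrict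
  refine ⟨n, fun k => ((b k : A) : ℂ),
    fun k => ⟨((b.coord k : A →ₗ[ℤ] ℤ).toAddMonoidHom).comp φ', ?_⟩, ?_⟩
  · rw [mem_parabolicHoms_iff]
    intro γ hγ
    have h0 : φ' (Additive.ofMul γ) = 0 := Subtype.ext (hφ γ hγ)
    show b.coord k (φ' (Additive.ofMul γ)) = 0
    rw [h0, map_zero]
  · refine AddMonoidHom.ext fun γ => ?_
    have h1 : (φ' γ : A) = ∑ k, b.repr (φ' γ) k • b k := (b.sum_repr (φ' γ)).symm
    have h2 : φ γ = ((φ' γ : A) : ℂ) := rfl
    rw [h2, h1]
    simp only [AddSubgroup.val_finsetSum, AddSubgroup.coe_zsmul, AddMonoidHom.finsetSum_apply,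
      AddMonoidHom.smul_apply, castHomOf_apply, smul_eq_mul, zsmul_eq_mul]
    refine Finset.sum_congr rfl fun k _ => ?_
    show _ = ((b k : A) : ℂ) * ((b.coord k (φ' γ) : ℤ) : ℂ)
    rw [Module.Basis.coord_apply, mul_comm]

/-! ### Composition with an automorphism of `Γ` -/

section CompAut

variable {G₀ : Type*} [Group G₀]

/-- `φ ↦ φ ∘ a` on `Hom(G₀, A)`, for an automorphism `a` of the group `G₀`. -/
def compAut (a : G₀ ≃* G₀) (A : Type*) [AddCommGroup A] :
    (Additive G₀ →+ A) →+ (Additive G₀ →+ A) where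
  toFun φ := φ.comp (MonoidHom.toAdditive a.toMonoidHom)
  map_zero' := rfl
  map_add' _ _ := rfl

@[simp] theorem compAut_apply (a : G₀ ≃* G₀) {A : Type*} [AddCommGroup A]
    (φ : Additive G₀ →+ A) (γ : G₀) :
    compAut a A φ (Additive.ofMul γ) = φ (Additive.ofMul (a γ)) := rfl

theorem compAut_refl {A : Type*} [AddCommGroup A] (φ : Additive G₀ →+ A) :
    compAut (MulEquiv.refl G₀) A φ = φ := rfl

theorem compAut_trans (a b : G₀ ≃* G₀) {A : Type*} [AddCommGroup A] (φ : Additive G₀ →+ A) :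
    compAut (a.trans b) A φ = compAut a A (compAut b A φ) := rfl

/-- inner automorphisms act trivially on `Hom(G₀, A)` -/
theorem compAut_conj (g : G₀) {A : Type*} [AddCommGroup A] (φ : Additive G₀ →+ A) :
    compAut (MulAut.conj g) A φ = φ := by
  refine AddMonoidHom.ext fun γ' => ?_
  obtain ⟨γ, rfl⟩ := Additive.ofMul.surjective γ'
  rw [compAut_apply, MulAut.conj_apply, ofMul_mul, ofMul_mul, ofMul_inv, map_add, map_add,
    map_neg]
  abel

theorem compAut_comp {A A' : Type*} [AddCommGroup A] [AddCommGroup A'] (a : G₀ ≃* G₀)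
    (f : A →+ A') (φ : Additive G₀ →+ A) :
    compAut a A' (f.comp φ) = f.comp (compAut a A φ) := rfl

theorem compAut_smul {R A : Type*} [AddCommGroup A] [Monoid R] [DistribMulAction R A]
    (a : G₀ ≃* G₀) (r : R) (φ : Additive G₀ →+ A) :
    compAut a A (r • φ) = r • compAut a A φ := rfl

end CompAut

/-! ### Left translates of coset systems -/

section LeftMul

variable {Γ₀ G : Type*} [Group Γ₀] [Group G] {emb : Γ₀ →* G} {ι : Type*}

/-- The left translate `w · D` of a coset system by an element `w` of the ambient group which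
normalises `Γ₀` (inducing the automorphism `a`). -/
def _root_.Fermat.Agent.Jac.CosetReps.leftMul (D : CosetReps emb ι) (a : Γ₀ ≃* Γ₀) (w : G)
    (haw : ∀ γ, emb (a γ) = w * emb γ * w⁻¹) : CosetReps emb ι where
  rep i := w * D.rep i
  emb_injective := D.emb_injective
  stable γ i := by
    refine ⟨a (D.coc γ i), D.next γ i, ?_⟩
    rw [haw, mul_assoc, D.rel γ i]
    group
  distinct i j γ h := by
    refine D.distinct i j (a.symm γ) ?_
    have h1 : emb γ = w * emb (a.symm γ) * w⁻¹ := by rw [← haw, a.apply_symm_apply]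
    rw [h1] at h
    have : D.rep i = w⁻¹ * (w * D.rep i) := by group
    rw [this, h]
    group

@[simp] theorem leftMul_rep (D : CosetReps emb ι) (a : Γ₀ ≃* Γ₀) (w : G)
    (haw : ∀ γ, emb (a γ) = w * emb γ * w⁻¹) (i : ι) :
    (D.leftMul a w haw).rep i = w * D.rep i := rfl

theorem leftMul_rel (D : CosetReps emb ι) (a : Γ₀ ≃* Γ₀) (w : G)
    (haw : ∀ γ, emb (a γ) = w * emb γ * w⁻¹) (γ : Γ₀) (i : ι) :
    (D.leftMul a w haw).rep i * emb γ =
      emb (a (D.coc γ i)) * (D.leftMul a w haw).rep (D.next γ i) := by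
  rw [leftMul_rep, leftMul_rep, haw, mul_assoc, D.rel γ i]
  group

/-- The transfer of the left translate: `T_{wD} φ = T_D (φ ∘ a)`. -/
theorem transfer_leftMul [Fintype ι] {A : Type*} [AddCommGroup A] (D : CosetReps emb ι)
    (a : Γ₀ ≃* Γ₀) (w : G) (haw : ∀ γ, emb (a γ) = w * emb γ * w⁻¹) (φ : Additive Γ₀ →+ A) :
    (D.leftMul a w haw).transfer φ = D.transfer (compAut a A φ) := by
  refine AddMonoidHom.ext fun γ' => ?_
  obtain ⟨γ, rfl⟩ := Additive.ofMul.surjective γ'
  rw [(D.leftMul a w haw).transfer_apply_of_rel φ γ _ _ (leftMul_rel D a w haw γ),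
    CosetReps.transfer_apply]
  rfl

end LeftMul

end Fermat.Agent.DS.Kum
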