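import Mathlib
import Fermat.Agent.DS.Kum.TransferGen

/-!
# PROGRAMME III (S48), block X1-KUM, leaf KUM-1b (helper9): the diamond operators and the Hecke
coset systems of `Γ₁(M)`, and their operators on `LamOf (Gamma1 M) = Hom_par(Γ₁(M), ℤ)`

* `mem_Gamma1_iff_of_mem_Gamma0`, `conj_mem_Gamma1`, `conjGamma1 M δ : Γ₁(M) ≃* Γ₁(M)`
  (`γ ↦ δ γ δ⁻¹`, `δ ∈ Γ₀(M)`);
* `diamondHom M δ A : Hom(Γ₁(M), A) →+ Hom(Γ₁(M), A)`, `φ ↦ φ ∘ conj_δ`; it only depends on the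
  lower right entry of `δ` modulo `M` (`diamondHom_eq_of_map_eq`); `diamondUnit M d A` for
  `d : (ZMod M)ˣ`, `diamondUnit_mul`, `diamondUnit_one`; `diamondLam M d` on the lattice;
  CONVENTION: if `g ∣[2] δ = χ(d_δ) g` and `ψ_g` is the period homomorphism of `g`, then
  `diamondHom M δ ℂ ψ_g = χ(d_δ) • ψ_g`  (`d_δ` the lower right entry);
* `IsDelta1 M A` : `A ∈ GL₂(ℝ)` is integral with `a ≡ 1`, `c ≡ 0 (mod M)`; `mem_Gamma1_of_rel`;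
* `T1Reps M hp hpM σ hσ : CosetReps (embOf (Gamma1 M)) (OnePoint (ZMod p))` : the coset system of
  `Γ₁(M) \ Γ₁(M) diag(1,p) Γ₁(M)`: representatives `[1,j;0,p]` (`j : ZMod p`) and `σ · diag(p,1)`
  where `σ ∈ Γ₀(M)` has lower right entry `≡ p (mod M)`;
* `T1StarReps` : the system `σ⁻¹ · T1Reps` of `Γ₁(M) \ Γ₁(M) diag(p,1) Γ₁(M)`
  (representatives `σ⁻¹[1,j;0,p]`, `diag(p,1)`), and `transfer_T1StarReps : T*_p = T_p ∘ ⟨p⟩⁻¹`-type
  relation `T1Star φ = T1 (φ ∘ conj_{σ⁻¹})`;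
* `T1Lam`, `T1StarLam` : the operators on the lattice.
-/

set_option autoImplicit false
set_option linter.unusedSectionVars false
set_option linter.style.haveILetI false

open Matrix.SpecialLinearGroup CongruenceSubgroup ModularForm ModularCurve.Period
open scoped MatrixGroups
open P2MW.S_ModularForm_heckeT_slash_eq_self_of_mem_Gamma0.ModularForm.HeckeSlashInvariance

noncomputable section

namespace Fermat.Agent.DS.Kum

open Fermat.Agent.Jac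

variable (M : ℕ)

/-! ### `Γ₁(M)` inside `Γ₀(M)` -/

/-- Inside `Γ₀(M)`, the subgroup `Γ₁(M)` is cut out by the lower right entry. -/
theorem mem_Gamma1_iff_of_mem_Gamma0 {g : SL(2, ℤ)} (hg : g ∈ Gamma0 M) :
    g ∈ Gamma1 M ↔ ((g 1 1 : ℤ) : ZMod M) = 1 := by
  rw [Gamma1_mem]
  constructor
  · exact fun h => h.2.1
  · intro h
    have hc : ((g 1 0 : ℤ) : ZMod M) = 0 := Gamma0_mem.mp hg
    refine ⟨?_, h, hc⟩
    have hdet := congrArg (Int.cast : ℤ → ZMod M) (det_eq g)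
    push_cast at hdet
    rw [h, hc, mul_zero, sub_zero, mul_one] at hdet
    exact hdet

theorem gamma0Map_eq_one_iff (δ : ↥(Gamma0 M)) :
    Gamma0Map M δ = 1 ↔ (δ : SL(2, ℤ)) ∈ Gamma1 M :=
  (mem_Gamma1_iff_of_mem_Gamma0 M δ.2).symm

theorem gamma0Map_mul_inv (δ : ↥(Gamma0 M)) : Gamma0Map M δ * Gamma0Map M δ⁻¹ = 1 := by
  rw [← map_mul, mul_inv_cancel, map_one]

theorem gamma0Map_inv_mul (δ : ↥(Gamma0 M)) : Gamma0Map M δ⁻¹ * Gamma0Map M δ = 1 := by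
  rw [← map_mul, inv_mul_cancel, map_one]

/-- `Γ₁(M)` is normalised by `Γ₀(M)`. -/
theorem conj_mem_Gamma1 {δ γ : SL(2, ℤ)} (hδ : δ ∈ Gamma0 M) (hγ : γ ∈ Gamma1 M) :
    δ * γ * δ⁻¹ ∈ Gamma1 M := by
  set δ' : ↥(Gamma0 M) := ⟨δ, hδ⟩
  set γ' : ↥(Gamma0 M) := ⟨γ, Gamma1_in_Gamma0 M hγ⟩
  have h1 : δ * γ * δ⁻¹ = ((δ' * γ' * δ'⁻¹ : ↥(Gamma0 M)) : SL(2, ℤ)) := rfl
  rw [h1, ← gamma0Map_eq_one_iff, map_mul, map_mul,
    (gamma0Map_eq_one_iff M γ').mpr hγ, mul_one, gamma0Map_mul_inv]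

/-- conjugation of `Γ₁(M)` by `δ ∈ Γ₀(M)`: `γ ↦ δ γ δ⁻¹` -/
def conjGamma1 (δ : ↥(Gamma0 M)) : ↥(Gamma1 M) ≃* ↥(Gamma1 M) where
  toFun γ := ⟨(δ : SL(2, ℤ)) * γ * (δ : SL(2, ℤ))⁻¹, conj_mem_Gamma1 M δ.2 γ.2⟩
  invFun γ := ⟨(δ : SL(2, ℤ))⁻¹ * γ * (δ : SL(2, ℤ)), by
    have := conj_mem_Gamma1 M (inv_mem δ.2) γ.2
    rwa [inv_inv] at this⟩
  left_inv γ := by
    apply Subtype.ext
    show (δ : SL(2, ℤ))⁻¹ * ((δ : SL(2, ℤ)) * γ * (δ : SL(2, ℤ))⁻¹) * (δ : SL(2, ℤ)) = γ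
    group
  right_inv γ := by
    apply Subtype.ext
    show (δ : SL(2, ℤ)) * ((δ : SL(2, ℤ))⁻¹ * γ * (δ : SL(2, ℤ))) * (δ : SL(2, ℤ))⁻¹ = γ
    group
  map_mul' γ γ' := by
    apply Subtype.ext
    show (δ : SL(2, ℤ)) * ((γ : SL(2, ℤ)) * γ') * (δ : SL(2, ℤ))⁻¹ =
      ((δ : SL(2, ℤ)) * γ * (δ : SL(2, ℤ))⁻¹) * ((δ : SL(2, ℤ)) * γ' * (δ : SL(2, ℤ))⁻¹)
    group

@[simp] theorem coe_conjGamma1_apply (δ : ↥(Gamma0 M)) (γ : ↥(Gamma1 M)) :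
    ((conjGamma1 M δ γ : ↥(Gamma1 M)) : SL(2, ℤ)) = (δ : SL(2, ℤ)) * γ * (δ : SL(2, ℤ))⁻¹ := rfl

theorem embOf_conjGamma1 (δ : ↥(Gamma0 M)) (γ : ↥(Gamma1 M)) :
    embOf (Gamma1 M) (conjGamma1 M δ γ) =
      mapGL ℝ (δ : SL(2, ℤ)) * embOf (Gamma1 M) γ * (mapGL ℝ (δ : SL(2, ℤ)))⁻¹ := by
  rw [embOf_apply, embOf_apply, coe_conjGamma1_apply, map_mul, map_mul, map_inv]

theorem conjGamma1_one : conjGamma1 M 1 = MulEquiv.refl _ := by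
  refine MulEquiv.ext fun γ => Subtype.ext ?_
  show ((1 : ↥(Gamma0 M)) : SL(2, ℤ)) * γ * ((1 : ↥(Gamma0 M)) : SL(2, ℤ))⁻¹ = γ
  rw [Subgroup.coe_one, one_mul, inv_one, mul_one]

theorem conjGamma1_mul (δ δ' : ↥(Gamma0 M)) :
    conjGamma1 M (δ * δ') = (conjGamma1 M δ').trans (conjGamma1 M δ) := by
  refine MulEquiv.ext fun γ => Subtype.ext ?_
  show ((δ * δ' : ↥(Gamma0 M)) : SL(2, ℤ)) * γ * ((δ * δ' : ↥(Gamma0 M)) : SL(2, ℤ))⁻¹ =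
    (δ : SL(2, ℤ)) * ((δ' : SL(2, ℤ)) * γ * (δ' : SL(2, ℤ))⁻¹) * (δ : SL(2, ℤ))⁻¹
  rw [Subgroup.coe_mul]
  group

/-- for `δ ∈ Γ₁(M)` the conjugation is inner -/
theorem conjGamma1_of_mem (δ : ↥(Gamma0 M)) (hδ : (δ : SL(2, ℤ)) ∈ Gamma1 M) :
    conjGamma1 M δ = MulAut.conj (⟨(δ : SL(2, ℤ)), hδ⟩ : ↥(Gamma1 M)) := by
  refine MulEquiv.ext fun γ => Subtype.ext ?_
  rfl

theorem trace_conjGamma1 (δ : ↥(Gamma0 M)) (γ : ↥(Gamma1 M)) :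
    (((conjGamma1 M δ γ : ↥(Gamma1 M)) : SL(2, ℤ)) : Matrix (Fin 2) (Fin 2) ℤ).trace =
      (((γ : ↥(Gamma1 M)) : SL(2, ℤ)) : Matrix (Fin 2) (Fin 2) ℤ).trace := by
  rw [coe_conjGamma1_apply, Matrix.SpecialLinearGroup.coe_mul, Matrix.SpecialLinearGroup.coe_mul,
    Matrix.trace_mul_cycle, ← Matrix.SpecialLinearGroup.coe_mul, inv_mul_cancel,
    Matrix.SpecialLinearGroup.coe_one, Matrix.one_mul]

/-! ### The diamond operators on `Hom(Γ₁(M), A)` -/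

section Diamond

variable (A : Type*) [AddCommGroup A]

/-- **The diamond operator** of `δ ∈ Γ₀(M)` on `Hom(Γ₁(M), A)`: `φ ↦ φ ∘ (γ ↦ δ γ δ⁻¹)`. -/
def diamondHom (δ : ↥(Gamma0 M)) : (Additive ↥(Gamma1 M) →+ A) →+ (Additive ↥(Gamma1 M) →+ A) :=
  compAut (conjGamma1 M δ) A

variable {A}

@[simp] theorem diamondHom_apply (δ : ↥(Gamma0 M)) (φ : Additive ↥(Gamma1 M) →+ A)
    (γ : ↥(Gamma1 M)) :
    diamondHom M A δ φ (Additive.ofMul γ) = φ (Additive.ofMul (conjGamma1 M δ γ)) := rfl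

theorem diamondHom_one (φ : Additive ↥(Gamma1 M) →+ A) : diamondHom M A 1 φ = φ := by
  unfold diamondHom
  rw [conjGamma1_one]
  rfl

theorem diamondHom_mul (δ δ' : ↥(Gamma0 M)) (φ : Additive ↥(Gamma1 M) →+ A) :
    diamondHom M A (δ * δ') φ = diamondHom M A δ' (diamondHom M A δ φ) := by
  unfold diamondHom
  rw [conjGamma1_mul, compAut_trans]

theorem diamondHom_of_mem (δ : ↥(Gamma0 M)) (hδ : (δ : SL(2, ℤ)) ∈ Gamma1 M)
    (φ : Additive ↥(Gamma1 M) →+ A) : diamondHom M A δ φ = φ := by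
  unfold diamondHom
  rw [conjGamma1_of_mem M δ hδ, compAut_conj]

/-- The diamond operator only depends on the lower right entry modulo `M`. -/
theorem diamondHom_eq_of_map_eq {δ δ' : ↥(Gamma0 M)} (h : Gamma0Map M δ = Gamma0Map M δ')
    (φ : Additive ↥(Gamma1 M) →+ A) : diamondHom M A δ φ = diamondHom M A δ' φ := by
  have h1 : ((δ * δ'⁻¹ : ↥(Gamma0 M)) : SL(2, ℤ)) ∈ Gamma1 M := by
    rw [← gamma0Map_eq_one_iff, map_mul, h, gamma0Map_mul_inv]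
  have h2 : δ = (δ * δ'⁻¹) * δ' := by group
  conv_lhs => rw [h2]
  rw [diamondHom_mul, diamondHom_of_mem M _ h1]

theorem diamondHom_comm (δ δ' : ↥(Gamma0 M)) (φ : Additive ↥(Gamma1 M) →+ A) :
    diamondHom M A δ (diamondHom M A δ' φ) = diamondHom M A δ' (diamondHom M A δ φ) := by
  rw [← diamondHom_mul, ← diamondHom_mul]
  exact diamondHom_eq_of_map_eq M (by rw [map_mul, map_mul, mul_comm]) φ

theorem diamondHom_comp {A' : Type*} [AddCommGroup A'] (δ : ↥(Gamma0 M)) (f : A →+ A')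
    (φ : Additive ↥(Gamma1 M) →+ A) :
    diamondHom M A' δ (f.comp φ) = f.comp (diamondHom M A δ φ) := rfl

theorem diamondHom_smul {R : Type*} [Monoid R] [DistribMulAction R A] (δ : ↥(Gamma0 M)) (r : R)
    (φ : Additive ↥(Gamma1 M) →+ A) :
    diamondHom M A δ (r • φ) = r • diamondHom M A δ φ := rfl

theorem diamondHom_castHomOf (δ : ↥(Gamma0 M)) (l : Additive ↥(Gamma1 M) →+ ℤ) :
    diamondHom M ℂ δ (castHomOf (Gamma1 M) l) = castHomOf (Gamma1 M) (diamondHom M ℤ δ l) := rfl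

theorem diamondHom_mem_parabolicHoms (R : Type*) [Semiring R] [Module R A] (δ : ↥(Gamma0 M))
    {φ : Additive ↥(Gamma1 M) →+ A} (hφ : φ ∈ parabolicHoms R (Gamma1 M) A) :
    diamondHom M A δ φ ∈ parabolicHoms R (Gamma1 M) A := by
  rw [mem_parabolicHoms_iff] at hφ ⊢
  intro γ hγ
  rw [diamondHom_apply]
  refine hφ _ ?_
  rw [trace_conjGamma1]
  exact hγ

/-- Every unit of `ℤ/M` is the lower right entry of an element of `Γ₀(M)`. -/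
theorem exists_gamma0Map_eq [NeZero M] (d : (ZMod M)ˣ) :
    ∃ δ : ↥(Gamma0 M), Gamma0Map M δ = (d : ZMod M) := by
  have hcop : Nat.Coprime (d : ZMod M).val M := ZMod.val_coe_unit_coprime d
  have hcop' : IsCoprime (((d : ZMod M).val : ℕ) : ℤ) (M : ℤ) := Nat.isCoprime_iff_coprime.mpr hcop
  obtain ⟨a, b, hab⟩ := hcop'
  have hdet : a * (((d : ZMod M).val : ℕ) : ℤ) - (-b) * (M : ℤ) = 1 := by linear_combination hab
  refine ⟨⟨mkSL a (-b) (M : ℤ) (((d : ZMod M).val : ℕ) : ℤ) hdet,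
    mkSL_mem_Gamma0 M _ _ _ _ hdet dvd_rfl⟩, ?_⟩
  show (((mkSL a (-b) (M : ℤ) (((d : ZMod M).val : ℕ) : ℤ) hdet) 1 1 : ℤ) : ZMod M) = d
  rw [mkSL_one_one]
  push_cast
  exact ZMod.natCast_zmod_val _

variable (A) in
/-- **The diamond operator `⟨d⟩`**, `d : (ℤ/M)ˣ`, on `Hom(Γ₁(M), A)`. -/
def diamondUnit [NeZero M] (d : (ZMod M)ˣ) :
    (Additive ↥(Gamma1 M) →+ A) →+ (Additive ↥(Gamma1 M) →+ A) :=
  diamondHom M A (exists_gamma0Map_eq M d).choose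

theorem diamondUnit_eq [NeZero M] (d : (ZMod M)ˣ) (δ : ↥(Gamma0 M))
    (hδ : Gamma0Map M δ = (d : ZMod M)) (φ : Additive ↥(Gamma1 M) →+ A) :
    diamondUnit M A d φ = diamondHom M A δ φ :=
  diamondHom_eq_of_map_eq M ((exists_gamma0Map_eq M d).choose_spec.trans hδ.symm) φ

theorem diamondUnit_one [NeZero M] (φ : Additive ↥(Gamma1 M) →+ A) :
    diamondUnit M A 1 φ = φ := by
  rw [diamondUnit_eq M 1 1 (by rw [map_one, Units.val_one]), diamondHom_one]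

theorem diamondUnit_mul [NeZero M] (d d' : (ZMod M)ˣ) (φ : Additive ↥(Gamma1 M) →+ A) :
    diamondUnit M A (d * d') φ = diamondUnit M A d (diamondUnit M A d' φ) := by
  obtain ⟨δ, hδ⟩ := exists_gamma0Map_eq M d
  obtain ⟨δ', hδ'⟩ := exists_gamma0Map_eq M d'
  rw [diamondUnit_eq M (d * d') (δ' * δ) (by rw [map_mul, hδ, hδ', Units.val_mul, mul_comm]),
    diamondUnit_eq M d δ hδ, diamondUnit_eq M d' δ' hδ', diamondHom_mul]

theorem diamondUnit_comp [NeZero M] {A' : Type*} [AddCommGroup A'] (d : (ZMod M)ˣ) (f : A →+ A')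
    (φ : Additive ↥(Gamma1 M) →+ A) :
    diamondUnit M A' d (f.comp φ) = f.comp (diamondUnit M A d φ) := by
  obtain ⟨δ, hδ⟩ := exists_gamma0Map_eq M d
  rw [diamondUnit_eq M d δ hδ, diamondUnit_eq M d δ hδ, diamondHom_comp]

theorem diamondUnit_smul [NeZero M] {R : Type*} [Monoid R] [DistribMulAction R A] (d : (ZMod M)ˣ)
    (r : R) (φ : Additive ↥(Gamma1 M) →+ A) :
    diamondUnit M A d (r • φ) = r • diamondUnit M A d φ :=
  diamondHom_smul M _ r φ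

theorem diamondUnit_castHomOf [NeZero M] (d : (ZMod M)ˣ) (l : Additive ↥(Gamma1 M) →+ ℤ) :
    diamondUnit M ℂ d (castHomOf (Gamma1 M) l) = castHomOf (Gamma1 M) (diamondUnit M ℤ d l) :=
  diamondUnit_comp M d (Int.castAddHom ℂ) l

/-- the diamond operator `⟨d⟩` on the lattice `LamOf (Gamma1 M)` -/
def diamondLam [NeZero M] (d : (ZMod M)ˣ) : ↥(LamOf (Gamma1 M)) →ₗ[ℤ] ↥(LamOf (Gamma1 M)) :=
  (diamondUnit M ℤ d).toIntLinearMap.restrict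
    (fun _ hφ => diamondHom_mem_parabolicHoms M ℤ _ hφ)

@[simp] theorem coe_diamondLam_apply [NeZero M] (d : (ZMod M)ˣ) (l : ↥(LamOf (Gamma1 M))) :
    ((diamondLam M d l : ↥(LamOf (Gamma1 M))) : Additive ↥(Gamma1 M) →+ ℤ) =
      diamondUnit M ℤ d (l : Additive ↥(Gamma1 M) →+ ℤ) := rfl

end Diamond

/-! ### Integral matrices with `a ≡ 1`, `c ≡ 0 (mod M)` -/

/-- `A ∈ GL₂(ℝ)` is integral with upper left entry `≡ 1` and lower left entry `≡ 0` modulo `M`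
(the monoid `Δ₁(M)` of Shimura, without the determinant condition). -/
def IsDelta1 (A : GL (Fin 2) ℝ) : Prop :=
  ∃ a b c d : ℤ, (A : Matrix (Fin 2) (Fin 2) ℝ) = !![(a : ℝ), (b : ℝ); (c : ℝ), (d : ℝ)] ∧
    (M : ℤ) ∣ a - 1 ∧ (M : ℤ) ∣ c

variable {M}

theorem IsDelta1.mul {A B : GL (Fin 2) ℝ} (hA : IsDelta1 M A) (hB : IsDelta1 M B) :
    IsDelta1 M (A * B) := by
  obtain ⟨a, b, c, d, hA, ha, hc⟩ := hA
  obtain ⟨a', b', c', d', hB, ha', hc'⟩ := hB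
  refine ⟨a * a' + b * c', a * b' + b * d', c * a' + d * c', c * b' + d * d', ?_, ?_, ?_⟩
  · rw [val_mul_fin_two hA hB]
    push_cast
    rfl
  · obtain ⟨u, hu⟩ := ha
    obtain ⟨u', hu'⟩ := ha'
    obtain ⟨w', hw'⟩ := hc'
    exact ⟨u * a' + u' + b * w', by rw [hw']; linear_combination a' * hu + hu'⟩
  · obtain ⟨w, hw⟩ := hc
    obtain ⟨w', hw'⟩ := hc'
    exact ⟨w * a' + d * w', by rw [hw, hw']; ring⟩

theorem isDelta1_mapGL {g : SL(2, ℤ)} (hg : g ∈ Gamma1 M) : IsDelta1 M (mapGL ℝ g) := by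
  rw [Gamma1_mem] at hg
  refine ⟨g 0 0, g 0 1, g 1 0, g 1 1, val_mapGL g, ?_, ?_⟩
  · rw [← ZMod.intCast_zmod_eq_zero_iff_dvd]
    push_cast
    rw [hg.1, sub_self]
  · rw [← ZMod.intCast_zmod_eq_zero_iff_dvd]
    exact hg.2.2

/-- **The key lemma**: if `A γ = g B` with `A, B ∈ Δ₁(M)`, `γ ∈ Γ₁(M)` and `g ∈ SL(2,ℤ)`, then
`g ∈ Γ₁(M)`. -/
theorem mem_Gamma1_of_rel {A B : GL (Fin 2) ℝ} (hA : IsDelta1 M A) (hB : IsDelta1 M B)
    {γ g : SL(2, ℤ)} (hγ : γ ∈ Gamma1 M) (h : A * mapGL ℝ γ = mapGL ℝ g * B) :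
    g ∈ Gamma1 M := by
  obtain ⟨a', b', c', d', hC, ha', hc'⟩ := hA.mul (isDelta1_mapGL hγ)
  obtain ⟨a, b, c, d, hB, ha, hc⟩ := hB
  rw [h, val_mul_fin_two (val_mapGL g) hB] at hC
  have h00 := congrArg (fun m : Matrix (Fin 2) (Fin 2) ℝ => m 0 0) hC
  have h10 := congrArg (fun m : Matrix (Fin 2) (Fin 2) ℝ => m 1 0) hC
  simp only [Matrix.of_apply, Matrix.cons_val_zero, Matrix.cons_val_one, Matrix.cons_val',
    Matrix.cons_val_fin_one] at h00 h10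
  have h00' : g 0 0 * a + g 0 1 * c = a' := by exact_mod_cast h00
  have h10' : g 1 0 * a + g 1 1 * c = c' := by exact_mod_cast h10
  obtain ⟨u, hu⟩ := ha
  obtain ⟨w, hw⟩ := hc
  obtain ⟨u', hu'⟩ := ha'
  obtain ⟨w', hw'⟩ := hc'
  have e1 : ((g 0 0 : ℤ) : ZMod M) = 1 := by
    have : (M : ℤ) ∣ g 0 0 - 1 :=
      ⟨u' - g 0 0 * u - g 0 1 * w, by
        rw [hw] at h00'
        linear_combination hu' + h00' - g 0 0 * hu⟩
    have h := (ZMod.intCast_zmod_eq_zero_iff_dvd _ _).mpr this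
    push_cast at h
    exact sub_eq_zero.mp h
  have e2 : ((g 1 0 : ℤ) : ZMod M) = 0 := by
    rw [ZMod.intCast_zmod_eq_zero_iff_dvd]
    exact ⟨w' - g 1 0 * u - g 1 1 * w, by
      rw [hw, hw'] at h10'
      linear_combination h10' - g 1 0 * hu⟩
  rw [Gamma1_mem]
  refine ⟨e1, ?_, e2⟩
  have hdet := congrArg (Int.cast : ℤ → ZMod M) (det_eq g)
  push_cast at hdet
  rw [e1, e2, mul_zero, sub_zero, one_mul] at hdet
  exact hdet

/-! ### The Hecke coset system of `Γ₁(M)` at a prime `p ∤ M` -/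

section T1

variable {p : ℕ}

/-- the twisting element: `σ` at `∞`, `1` at the finite points -/
def t1Twist (σ : SL(2, ℤ)) (x : OnePoint (ZMod p)) : SL(2, ℤ) := x.elim σ (fun _ => 1)

@[simp] theorem t1Twist_infty (σ : SL(2, ℤ)) : t1Twist σ (OnePoint.infty : OnePoint (ZMod p)) = σ :=
  rfl

@[simp] theorem t1Twist_coe (σ : SL(2, ℤ)) (j : ZMod p) :
    t1Twist σ ((j : ZMod p) : OnePoint (ZMod p)) = 1 := rfl

theorem t1Twist_mem_Gamma0 (σ : ↥(Gamma0 M)) (x : OnePoint (ZMod p)) :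
    t1Twist (σ : SL(2, ℤ)) x ∈ Gamma0 M := by
  induction x using OnePoint.rec with
  | infty => exact σ.2
  | coe j => exact one_mem _

/-- the representatives: `σ · diag(p, 1)` at `∞` and `[1, j; 0, p]` at `j : ZMod p` -/
def t1Rep (σ : SL(2, ℤ)) (p : ℕ) (x : OnePoint (ZMod p)) : GL (Fin 2) ℝ :=
  mapGL ℝ (t1Twist σ x) * heckeRep p x

theorem t1Rep_infty (σ : SL(2, ℤ)) :
    t1Rep σ p (OnePoint.infty : OnePoint (ZMod p)) = mapGL ℝ σ * heckeDiagMatrix p := rfl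

theorem t1Rep_coe (σ : SL(2, ℤ)) (j : ZMod p) :
    t1Rep σ p ((j : ZMod p) : OnePoint (ZMod p)) = heckeMatrix p j.val := by
  rw [t1Rep, t1Twist_coe, map_one, one_mul, heckeRep_coe]

theorem isDelta1_t1Rep (hp : p ≠ 0) (σ : ↥(Gamma0 M))
    (hσ : Gamma0Map M σ = (p : ZMod M)) (x : OnePoint (ZMod p)) :
    IsDelta1 M (t1Rep (σ : SL(2, ℤ)) p x) := by
  induction x using OnePoint.rec with
  | infty =>
    rw [t1Rep_infty]
    refine ⟨(σ : SL(2, ℤ)) 0 0 * p, (σ : SL(2, ℤ)) 0 1, (σ : SL(2, ℤ)) 1 0 * p,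
      (σ : SL(2, ℤ)) 1 1, ?_, ?_, ?_⟩
    · rw [val_mul_fin_two (val_mapGL _) (val_heckeDiagMatrix hp)]
      push_cast
      simp
    · have hdet := congrArg (Int.cast : ℤ → ZMod M) (det_eq (σ : SL(2, ℤ)))
      have hc : (((σ : SL(2, ℤ)) 1 0 : ℤ) : ZMod M) = 0 := Gamma0_mem.mp σ.2
      have hd : (((σ : SL(2, ℤ)) 1 1 : ℤ) : ZMod M) = (p : ZMod M) := hσ
      push_cast at hdet
      rw [hc, mul_zero, sub_zero, hd] at hdet
      rw [← ZMod.intCast_zmod_eq_zero_iff_dvd]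
      push_cast
      rw [hdet, sub_self]
    · exact Dvd.dvd.mul_right (gamma0_dvd M σ) _
  | coe j =>
    rw [t1Rep_coe]
    refine ⟨1, (j.val : ℤ), 0, (p : ℤ), ?_, by simp, by simp⟩
    rw [val_heckeMatrix hp]
    push_cast
    rfl

/-- **The coset system of `T_p` on `Γ₁(M)`**, `p ∤ M` prime: representatives `[1, j; 0, p]`
(`j : ZMod p`) and `σ · diag(p, 1)` of `Γ₁(M) \ Γ₁(M) diag(1,p) Γ₁(M)`, where `σ ∈ Γ₀(M)` has lower
right entry `≡ p (mod M)`. -/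
def T1Reps (M : ℕ) (hp : p.Prime) (hpM : ¬ p ∣ M) (σ : ↥(Gamma0 M))
    (hσ : Gamma0Map M σ = (p : ZMod M)) : CosetReps (embOf (Gamma1 M)) (OnePoint (ZMod p)) where
  rep := t1Rep (σ : SL(2, ℤ)) p
  emb_injective := embOf_injective (Gamma1 M)
  stable γ x := by
    haveI : Fact p.Prime := ⟨hp⟩
    have hγ0 : ((γ : SL(2, ℤ))) ∈ Gamma0 M := Gamma1_in_Gamma0 M γ.2
    obtain ⟨g', -, h⟩ := heckeRep_mul hpM (γ : SL(2, ℤ)) (gamma0_dvd M ⟨_, hγ0⟩) x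
    set y := redMatrix p (γ : SL(2, ℤ)) • x with hy
    set g'' : SL(2, ℤ) := t1Twist (σ : SL(2, ℤ)) x * g' * (t1Twist (σ : SL(2, ℤ)) y)⁻¹ with hg''
    have hrel : t1Rep (σ : SL(2, ℤ)) p x * mapGL ℝ (γ : SL(2, ℤ)) =
        mapGL ℝ g'' * t1Rep (σ : SL(2, ℤ)) p y := by
      rw [t1Rep, t1Rep, mul_assoc, h, hg'', map_mul, map_mul, map_inv]
      group
    have hmem : g'' ∈ Gamma1 M :=
      mem_Gamma1_of_rel (isDelta1_t1Rep hp.ne_zero σ hσ x) (isDelta1_t1Rep hp.ne_zero σ hσ y)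
        γ.2 hrel
    exact ⟨⟨g'', hmem⟩, y, hrel⟩
  distinct x y γ h := by
    have hγ0 : ((γ : SL(2, ℤ))) ∈ Gamma0 M := Gamma1_in_Gamma0 M γ.2
    set g : SL(2, ℤ) := (t1Twist (σ : SL(2, ℤ)) x)⁻¹ * (γ : SL(2, ℤ)) * t1Twist (σ : SL(2, ℤ)) y
      with hg
    have hg0 : g ∈ Gamma0 M :=
      mul_mem (mul_mem (inv_mem (t1Twist_mem_Gamma0 σ x)) hγ0) (t1Twist_mem_Gamma0 σ y)
    refine (TReps M hp hpM).distinct x y ⟨g, hg0⟩ ?_
    rw [TReps_rep, TReps_rep, embG_apply]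
    show heckeRep p x = mapGL ℝ g * heckeRep p y
    rw [embOf_apply] at h
    have h' : mapGL ℝ (t1Twist (σ : SL(2, ℤ)) x) * heckeRep p x =
        mapGL ℝ (γ : SL(2, ℤ)) * (mapGL ℝ (t1Twist (σ : SL(2, ℤ)) y) * heckeRep p y) := h
    rw [hg, map_mul, map_mul, map_inv, mul_assoc, mul_assoc, ← h', inv_mul_cancel_left]

@[simp] theorem T1Reps_rep (hp : p.Prime) (hpM : ¬ p ∣ M) (σ : ↥(Gamma0 M))
    (hσ : Gamma0Map M σ = (p : ZMod M)) (x : OnePoint (ZMod p)) :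
    (T1Reps M hp hpM σ hσ).rep x = t1Rep (σ : SL(2, ℤ)) p x := rfl

/-- **Independence of `σ`.** -/
theorem transfer_T1Reps_eq {A : Type*} [AddCommGroup A] (hp : p.Prime) (hpM : ¬ p ∣ M)
    (σ σ' : ↥(Gamma0 M)) (hσ : Gamma0Map M σ = (p : ZMod M))
    (hσ' : Gamma0Map M σ' = (p : ZMod M)) :
    haveI : NeZero p := ⟨hp.ne_zero⟩
    ((T1Reps M hp hpM σ' hσ').transfer : (Additive ↥(Gamma1 M) →+ A) →+ _) =
      (T1Reps M hp hpM σ hσ).transfer := by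
  haveI : NeZero p := ⟨hp.ne_zero⟩
  have hmem : ((σ' * σ⁻¹ : ↥(Gamma0 M)) : SL(2, ℤ)) ∈ Gamma1 M := by
    rw [← gamma0Map_eq_one_iff, map_mul, hσ', ← hσ, gamma0Map_mul_inv]
  refine (T1Reps M hp hpM σ hσ).transfer_eq_of_reps (T1Reps M hp hpM σ' hσ') (Equiv.refl _)
    (fun x => x.elim ⟨_, hmem⟩ (fun _ => 1)) fun x => ?_
  induction x using OnePoint.rec with
  | infty =>
    show t1Rep (σ' : SL(2, ℤ)) p OnePoint.infty =
      mapGL ℝ ((σ' * σ⁻¹ : ↥(Gamma0 M)) : SL(2, ℤ)) * t1Rep (σ : SL(2, ℤ)) p OnePoint.infty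
    rw [t1Rep_infty, t1Rep_infty, Subgroup.coe_mul, Subgroup.coe_inv, map_mul, map_inv]
    group
  | coe j =>
    show t1Rep (σ' : SL(2, ℤ)) p (j : OnePoint (ZMod p)) =
      embOf (Gamma1 M) 1 * t1Rep (σ : SL(2, ℤ)) p (j : OnePoint (ZMod p))
    rw [t1Rep_coe, t1Rep_coe, map_one, one_mul]

/-- **The coset system of `T_p^*` on `Γ₁(M)`**: the left translate `σ⁻¹ · T1Reps`,
representatives `σ⁻¹ [1, j; 0, p]` and `diag(p, 1)` of `Γ₁(M) \ Γ₁(M) diag(p,1) Γ₁(M)`. -/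
def T1StarReps (M : ℕ) (hp : p.Prime) (hpM : ¬ p ∣ M) (σ : ↥(Gamma0 M))
    (hσ : Gamma0Map M σ = (p : ZMod M)) : CosetReps (embOf (Gamma1 M)) (OnePoint (ZMod p)) :=
  (T1Reps M hp hpM σ hσ).leftMul (conjGamma1 M σ⁻¹) (mapGL ℝ ((σ⁻¹ : ↥(Gamma0 M)) : SL(2, ℤ)))
    (embOf_conjGamma1 M σ⁻¹)

theorem T1StarReps_rep_infty (hp : p.Prime) (hpM : ¬ p ∣ M) (σ : ↥(Gamma0 M))
    (hσ : Gamma0Map M σ = (p : ZMod M)) :
    (T1StarReps M hp hpM σ hσ).rep OnePoint.infty = heckeDiagMatrix p := by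
  show mapGL ℝ ((σ⁻¹ : ↥(Gamma0 M)) : SL(2, ℤ)) * t1Rep (σ : SL(2, ℤ)) p OnePoint.infty = _
  rw [t1Rep_infty, Subgroup.coe_inv, map_inv, inv_mul_cancel_left]

theorem T1StarReps_rep_coe (hp : p.Prime) (hpM : ¬ p ∣ M) (σ : ↥(Gamma0 M))
    (hσ : Gamma0Map M σ = (p : ZMod M)) (j : ZMod p) :
    (T1StarReps M hp hpM σ hσ).rep (j : OnePoint (ZMod p)) =
      (mapGL ℝ (σ : SL(2, ℤ)))⁻¹ * heckeMatrix p j.val := by
  show mapGL ℝ ((σ⁻¹ : ↥(Gamma0 M)) : SL(2, ℤ)) * t1Rep (σ : SL(2, ℤ)) p (j : OnePoint (ZMod p)) = _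
  rw [t1Rep_coe, Subgroup.coe_inv, map_inv]

/-- `T_p^* φ = T_p (φ ∘ conj_{σ⁻¹})`, i.e. `T_p^* = T_p ∘ ⟨p⟩⁻¹`. -/
theorem transfer_T1StarReps {A : Type*} [AddCommGroup A] (hp : p.Prime) (hpM : ¬ p ∣ M)
    (σ : ↥(Gamma0 M)) (hσ : Gamma0Map M σ = (p : ZMod M)) (φ : Additive ↥(Gamma1 M) →+ A) :
    haveI : NeZero p := ⟨hp.ne_zero⟩
    (T1StarReps M hp hpM σ hσ).transfer φ =
      (T1Reps M hp hpM σ hσ).transfer (diamondHom M A σ⁻¹ φ) := by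
  haveI : NeZero p := ⟨hp.ne_zero⟩
  exact transfer_leftMul _ _ _ _ φ

end T1

/-! ### The operators `T_p`, `T_p^*` on `Hom(Γ₁(M), A)` and on the lattice -/

section Operators

variable (M) [NeZero M] {p : ℕ}

/-- the class of a prime `p ∤ M` in `(ℤ/M)ˣ` -/
def primeUnit (hp : p.Prime) (hpM : ¬ p ∣ M) : (ZMod M)ˣ :=
  ZMod.unitOfCoprime p ((Nat.Prime.coprime_iff_not_dvd hp).mpr hpM)

@[simp] theorem coe_primeUnit (hp : p.Prime) (hpM : ¬ p ∣ M) :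
    ((primeUnit M hp hpM : (ZMod M)ˣ) : ZMod M) = (p : ZMod M) :=
  ZMod.coe_unitOfCoprime p _

/-- a chosen element of `Γ₀(M)` with lower right entry `≡ p (mod M)` -/
def sigmaOf (hp : p.Prime) (hpM : ¬ p ∣ M) : ↥(Gamma0 M) :=
  (exists_gamma0Map_eq M (primeUnit M hp hpM)).choose

theorem gamma0Map_sigmaOf (hp : p.Prime) (hpM : ¬ p ∣ M) :
    Gamma0Map M (sigmaOf M hp hpM) = (p : ZMod M) :=
  (exists_gamma0Map_eq M (primeUnit M hp hpM)).choose_spec.trans (coe_primeUnit M hp hpM)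

variable (A : Type*) [AddCommGroup A]

/-- **The Hecke operator `T_p`** (`p ∤ M` prime) on `Hom(Γ₁(M), A)`: the transfer of `T1Reps`. -/
def hecke1 (hp : p.Prime) (hpM : ¬ p ∣ M) :
    (Additive ↥(Gamma1 M) →+ A) →+ (Additive ↥(Gamma1 M) →+ A) :=
  haveI : NeZero p := ⟨hp.ne_zero⟩
  (T1Reps M hp hpM (sigmaOf M hp hpM) (gamma0Map_sigmaOf M hp hpM)).transfer

/-- **The Hecke operator `T_p^*`** on `Hom(Γ₁(M), A)`: the transfer of `T1StarReps`. -/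
def hecke1Star (hp : p.Prime) (hpM : ¬ p ∣ M) :
    (Additive ↥(Gamma1 M) →+ A) →+ (Additive ↥(Gamma1 M) →+ A) :=
  haveI : NeZero p := ⟨hp.ne_zero⟩
  (T1StarReps M hp hpM (sigmaOf M hp hpM) (gamma0Map_sigmaOf M hp hpM)).transfer

variable {A}

theorem hecke1_eq (hp : p.Prime) (hpM : ¬ p ∣ M) (σ : ↥(Gamma0 M))
    (hσ : Gamma0Map M σ = (p : ZMod M)) :
    hecke1 M A hp hpM =
      (haveI : NeZero p := ⟨hp.ne_zero⟩; (T1Reps M hp hpM σ hσ).transfer) :=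
  transfer_T1Reps_eq hp hpM σ (sigmaOf M hp hpM) hσ (gamma0Map_sigmaOf M hp hpM)

/-- `T_p^* = T_p ∘ ⟨p⟩⁻¹`. -/
theorem hecke1Star_apply (hp : p.Prime) (hpM : ¬ p ∣ M) (φ : Additive ↥(Gamma1 M) →+ A) :
    hecke1Star M A hp hpM φ =
      hecke1 M A hp hpM (diamondUnit M A (primeUnit M hp hpM)⁻¹ φ) := by
  haveI : NeZero p := ⟨hp.ne_zero⟩
  unfold hecke1Star hecke1
  rw [transfer_T1StarReps]
  congr 1
  refine (diamondUnit_eq M _ _ ?_ φ).symm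
  have h1 := gamma0Map_inv_mul M (sigmaOf M hp hpM)
  rw [gamma0Map_sigmaOf, ← coe_primeUnit M hp hpM] at h1
  exact Units.eq_inv_of_mul_eq_one_right h1

theorem hecke1_comp {A' : Type*} [AddCommGroup A'] (hp : p.Prime) (hpM : ¬ p ∣ M) (f : A →+ A')
    (φ : Additive ↥(Gamma1 M) →+ A) :
    hecke1 M A' hp hpM (f.comp φ) = f.comp (hecke1 M A hp hpM φ) := by
  haveI : NeZero p := ⟨hp.ne_zero⟩
  exact CosetReps.transfer_comp _ f φ

theorem hecke1_smul {R : Type*} [Monoid R] [DistribMulAction R A] (hp : p.Prime)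
    (hpM : ¬ p ∣ M) (r : R) (φ : Additive ↥(Gamma1 M) →+ A) :
    hecke1 M A hp hpM (r • φ) = r • hecke1 M A hp hpM φ := by
  haveI : NeZero p := ⟨hp.ne_zero⟩
  exact CosetReps.transfer_smul _ r φ

theorem hecke1_castHomOf (hp : p.Prime) (hpM : ¬ p ∣ M) (l : Additive ↥(Gamma1 M) →+ ℤ) :
    hecke1 M ℂ hp hpM (castHomOf (Gamma1 M) l) = castHomOf (Gamma1 M) (hecke1 M ℤ hp hpM l) :=
  hecke1_comp M hp hpM (Int.castAddHom ℂ) l

theorem hecke1_mem_parabolicHoms (R : Type*) [Semiring R] [Module R A] (hp : p.Prime)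
    (hpM : ¬ p ∣ M) (htf : ∀ (n : ℕ) (x : A), n ≠ 0 → n • x = 0 → x = 0)
    {φ : Additive ↥(Gamma1 M) →+ A} (hφ : φ ∈ parabolicHoms R (Gamma1 M) A) :
    hecke1 M A hp hpM φ ∈ parabolicHoms R (Gamma1 M) A := by
  haveI : NeZero p := ⟨hp.ne_zero⟩
  exact transfer_mem_parabolicHomsOf _ R htf hφ

/-- the Hecke operator `T_p` on the lattice `LamOf (Gamma1 M)` -/
def T1Lam (hp : p.Prime) (hpM : ¬ p ∣ M) : ↥(LamOf (Gamma1 M)) →ₗ[ℤ] ↥(LamOf (Gamma1 M)) :=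
  (hecke1 M ℤ hp hpM).toIntLinearMap.restrict
    (fun _ hφ => hecke1_mem_parabolicHoms M ℤ hp hpM int_torsionFree hφ)

@[simp] theorem coe_T1Lam_apply (hp : p.Prime) (hpM : ¬ p ∣ M) (l : ↥(LamOf (Gamma1 M))) :
    ((T1Lam M hp hpM l : ↥(LamOf (Gamma1 M))) : Additive ↥(Gamma1 M) →+ ℤ) =
      hecke1 M ℤ hp hpM (l : Additive ↥(Gamma1 M) →+ ℤ) := rfl

end Operators

end Fermat.Agent.DS.Kum
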