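import Mathlib
import Fermat.Agent.X0.Rotation
import Fermat.Agent.X0.S21.Harm
import Fermat.Agent.X0.S21.Parabolic
import Fermat.Agent.DS.Kum.TransferGen

/-!
# PROGRAMME III (S48), block X1-KUM, leaf KUM-3a (helper9): period homomorphisms of weight two
forms, for ANY `Γ ≤ SL(2,ℤ)` — the soft layer

`IsCuspPrimitive f F` : `F` is a holomorphic primitive of `f` on `ℍ` with limits at all cusps.
Everything else follows from the chain rule `d/dτ F(gτ) = (f ∣[2] g)(τ)`: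

* `hasDerivAt_comp_smul` : the chain rule;
* `IsCuspPrimitive.isEquivariantPrimitive` : if `f ∣[2] γ = f` for `γ ∈ Γ` then `F(γτ) - F(τ)` is
  constant; `periodOf` : the period homomorphism `Γ → ℂ`, `periodOf_apply`;
* `periodOf_isParabolicHom`; `periodOf_ne_zero` (`Γ` of finite index, `f ≠ 0`);
* `compAut_periodOf` : if `δ ∈ SL(2,ℤ)` normalises `Γ` and `f ∣[2] δ = c • f` then
  `ψ ∘ conj_δ = c • ψ`  (diamond operators);
* `transfer_periodOf` : if `D` is a coset system of `Γ` in `GL₂(ℝ)⁺` and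
  `∑ x, f ∣[2] D.rep x = b • f` then `D.transfer ψ = b • ψ`  (Hecke operators).
-/

set_option autoImplicit false
set_option linter.unusedSectionVars false
set_option linter.style.haveILetI false

open Complex Filter Topology Function
open UpperHalfPlane hiding I
open Matrix.SpecialLinearGroup ModularCurve.Period
open scoped MatrixGroups ModularForm Manifold

noncomputable section

namespace Fermat.Agent.DS.Kum

open Fermat.Agent.Jac Fermat.Agent.X0.Rot Fermat.Agent.X0.S21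

/-! ### The chain rule -/

/-- **The chain rule**: if `F' = f` on `ℍ` then `d/dτ F(gτ) = (f ∣[2] g)(τ)` for `g ∈ GL₂(ℝ)⁺`. -/
theorem hasDerivAt_comp_smul {F f : ℍ → ℂ}
    (hF : ∀ τ : ℍ, HasDerivAt (F ∘ ofComplex) (f τ) τ) {g : GL (Fin 2) ℝ}
    (hg : 0 < g.det.val) (z : ℍ) :
    HasDerivAt ((fun τ : ℍ => F (g • τ)) ∘ ofComplex) ((f ∣[(2 : ℤ)] g) z) z := by
  have hd : denom g (z : ℂ) ≠ 0 := denom_ne_zero g z
  have h1 : HasDerivAt (F ∘ ofComplex) (f (g • z)) (moebC g (z : ℂ)) := by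
    rw [moebC_coe hg]
    exact hF (g • z)
  have h2 := h1.comp (z : ℂ) (hasDerivAt_moebC g hd)
  have h3 : (f ∣[(2 : ℤ)] g) z = f (g • z) * (((g.det.val : ℝ) : ℂ) / denom g (z : ℂ) ^ 2) := by
    rw [ModularForm.slash_apply, UpperHalfPlane.σ, if_pos hg, ContinuousAlgEquiv.refl_apply,
      abs_of_pos hg]
    have : ((2 : ℤ) - 1) = 1 := by norm_num
    rw [this, zpow_one, zpow_neg, div_eq_mul_inv, mul_assoc]
    rfl
  rw [h3]
  exact h2.congr_of_eventuallyEq (comp_smul_eventuallyEq F hg z)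

/-- Two functions on `ℍ` with the same derivative differ by a constant. -/
theorem exists_const_of_hasDerivAt_eq' {F G : ℍ → ℂ} {f : ℍ → ℂ}
    (hF : ∀ τ : ℍ, HasDerivAt (F ∘ ofComplex) (f τ) ↑τ)
    (hG : ∀ τ : ℍ, HasDerivAt (G ∘ ofComplex) (f τ) ↑τ) :
    ∃ c : ℂ, ∀ τ : ℍ, F τ - G τ = c := by
  set D : ℂ → ℂ := fun z => (F ∘ ofComplex) z - (G ∘ ofComplex) z with hD
  have hopen : IsOpen {z : ℂ | 0 < z.im} := isOpen_lt continuous_const Complex.continuous_im
  have hconv : Convex ℝ {z : ℂ | 0 < z.im} := by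
    intro x hx y hy a b ha hb hab
    simp only [Set.mem_ofPred_eq, Complex.add_im, Complex.smul_im, smul_eq_mul] at hx hy ⊢
    rcases ha.eq_or_lt with rfl | ha'
    · have hb1 : b = 1 := by linarith
      subst hb1; simpa using hy
    · have h1 : 0 < a * x.im := mul_pos ha' hx
      have h2 : 0 ≤ b * y.im := mul_nonneg hb hy.le
      linarith
  have hderiv : ∀ z ∈ {z : ℂ | 0 < z.im}, HasDerivAt D 0 z := by
    intro z hz
    have h1 := hF ⟨z, hz⟩
    have h2 := hG ⟨z, hz⟩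
    have h3 := h1.sub h2
    rw [sub_self] at h3
    exact h3
  have hdiff : DifferentiableOn ℂ D {z : ℂ | 0 < z.im} := fun z hz =>
    (hderiv z hz).differentiableAt.differentiableWithinAt
  have hconst : ∀ z ∈ {z : ℂ | 0 < z.im}, D z = D Complex.I := by
    intro z hz
    refine hconv.is_const_of_fderivWithin_eq_zero (𝕜 := ℂ) hdiff (fun w hw => ?_) hz
      (by simp)
    rw [fderivWithin_of_isOpen hopen hw]
    have := (hderiv w hw).hasFDerivAt.fderiv
    rw [this]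
    ext
    simp
  refine ⟨D Complex.I, fun τ => ?_⟩
  have := hconst τ τ.im_pos
  simpa [hD, Function.comp_apply] using this

/-! ### Primitives with limits at the cusps -/

/-- `F` is a holomorphic primitive of `f` on `ℍ` with a limit at every cusp. -/
structure IsCuspPrimitive (f F : ℍ → ℂ) : Prop where
  hasDeriv : ∀ τ : ℍ, HasDerivAt (F ∘ ofComplex) (f τ) τ
  lim : ∀ δ : SL(2, ℤ), ∃ L : ℂ, Tendsto (fun w : ℍ => F (δ • w)) atImInfty (𝓝 L)

namespace IsCuspPrimitive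

variable {Γ : Subgroup SL(2, ℤ)} {f F : ℍ → ℂ}

theorem mdiff (hF : IsCuspPrimitive f F) : MDiff F := by
  rw [UpperHalfPlane.mdifferentiable_iff]
  intro w hw
  exact (hF.hasDeriv ⟨w, hw⟩).differentiableAt.differentiableWithinAt

/-- If `f ∣[2] δ = c • f` for `δ ∈ SL(2,ℤ)` then `F(δτ) - c F(τ)` is constant. -/
theorem exists_const_of_slash_eq_smul (hF : IsCuspPrimitive f F) {δ : SL(2, ℤ)} {c : ℂ}
    (hδ : f ∣[(2 : ℤ)] δ = c • f) : ∃ K : ℂ, ∀ τ : ℍ, F (δ • τ) - c * F τ = K := by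
  have hdet : 0 < (mapGL ℝ δ : GL (Fin 2) ℝ).det.val := by simp
  have h1 : ∀ τ : ℍ, HasDerivAt ((fun τ : ℍ => F (δ • τ)) ∘ ofComplex) (c * f τ) τ := by
    intro τ
    have := hasDerivAt_comp_smul hF.hasDeriv hdet τ
    have e : (f ∣[(2 : ℤ)] (mapGL ℝ δ : GL (Fin 2) ℝ)) τ = c * f τ := by
      have h : (f ∣[(2 : ℤ)] δ) τ = (c • f) τ := congrFun hδ τ
      rw [Pi.smul_apply, smul_eq_mul] at h
      exact h
    rw [e] at this
    exact this
  have h2 : ∀ τ : ℍ, HasDerivAt ((fun τ : ℍ => c * F τ) ∘ ofComplex) (c * f τ) τ := by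
    intro τ
    exact (hF.hasDeriv τ).const_mul c
  exact exists_const_of_hasDerivAt_eq' h1 h2

/-- A primitive of a `Γ`-invariant form is an equivariant primitive. -/
theorem isEquivariantPrimitive (hF : IsCuspPrimitive f F)
    (hinv : ∀ γ ∈ Γ, f ∣[(2 : ℤ)] γ = f) : IsEquivariantPrimitive Γ F := by
  intro γ
  obtain ⟨K, hK⟩ := hF.exists_const_of_slash_eq_smul (δ := (γ : SL(2, ℤ))) (c := 1)
    (by rw [hinv γ γ.2, one_smul])
  exact ⟨K, fun z => by rw [← hK z, one_mul]⟩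

/-- **The period homomorphism** of a `Γ`-invariant form with primitive `F`. -/
def periodOf (hF : IsCuspPrimitive f F) (hinv : ∀ γ ∈ Γ, f ∣[(2 : ℤ)] γ = f) :
    Additive ↥Γ →+ ℂ :=
  (hF.isEquivariantPrimitive hinv).periodHom

theorem periodOf_apply (hF : IsCuspPrimitive f F) (hinv : ∀ γ ∈ Γ, f ∣[(2 : ℤ)] γ = f)
    (γ : ↥Γ) (z : ℍ) :
    hF.periodOf hinv (Additive.ofMul γ) = F ((γ : SL(2, ℤ)) • z) - F z := by
  unfold periodOf
  rw [IsEquivariantPrimitive.periodHom_apply, ← IsEquivariantPrimitive.sub_eq_period _ γ z]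

/-- Periods vanish on parabolic elements. -/
theorem periodOf_isParabolicHom (hF : IsCuspPrimitive f F)
    (hinv : ∀ γ ∈ Γ, f ∣[(2 : ℤ)] γ = f) : IsParabolicHom Γ (hF.periodOf hinv) := by
  intro γ hγ
  obtain ⟨δ, n, hδ⟩ := exists_conj_T_zpow_of_trace_sq (γ : SL(2, ℤ)) hγ
  have hsmul : ∀ w : ℍ, (γ : SL(2, ℤ)) • (δ • w) = δ • (ModularGroup.T ^ n • w) := by
    intro w
    rcases hδ with h | h
    · rw [h, mul_smul, mul_smul, inv_smul_smul]
    · rw [h, ModularGroup.SL_neg_smul, mul_smul, mul_smul, inv_smul_smul]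
  have hval : ∀ w : ℍ, hF.periodOf hinv (Additive.ofMul γ) =
      F (δ • (ModularGroup.T ^ n • w)) - F (δ • w) := by
    intro w
    rw [hF.periodOf_apply hinv γ (δ • w), hsmul]
  obtain ⟨L, hL⟩ := hF.lim δ
  have h1 : Tendsto (fun w : ℍ => F (δ • (ModularGroup.T ^ n • w))) atImInfty (𝓝 L) :=
    hL.comp (tendsto_T_zpow_smul_atImInfty n)
  have h2 : Tendsto (fun w : ℍ => F (δ • (ModularGroup.T ^ n • w)) - F (δ • w))
      atImInfty (𝓝 (L - L)) := h1.sub hL
  have h3 : Tendsto (fun _ : ℍ => hF.periodOf hinv (Additive.ofMul γ)) atImInfty (𝓝 (L - L)) :=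
    h2.congr fun w => (hval w).symm
  have h4 := tendsto_nhds_unique h3 tendsto_const_nhds
  rw [sub_self] at h4
  exact h4.symm

/-- **Injectivity**: the period homomorphism of a nonzero form is nonzero (`Γ` of finite
index). -/
theorem periodOf_ne_zero [Γ.FiniteIndex] (hF : IsCuspPrimitive f F)
    (hinv : ∀ γ ∈ Γ, f ∣[(2 : ℤ)] γ = f) (hf : f ≠ 0) : hF.periodOf hinv ≠ 0 := by
  intro h0
  apply hf
  have hconst : ∀ z w : ℍ, F z = F w := by
    refine harm_const_of_imaginary_periods Γ hF.mdiff (fun γ hγ => ⟨0, fun z => ?_⟩) hF.lim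
    have := hF.periodOf_apply hinv ⟨γ, hγ⟩ z
    rw [h0, AddMonoidHom.zero_apply] at this
    rw [← this]
    simp
  funext τ
  have h1 := hF.hasDeriv τ
  have h2 : HasDerivAt (F ∘ ofComplex) 0 (τ : ℂ) := by
    have : (F ∘ ofComplex) =ᶠ[𝓝 (τ : ℂ)] fun _ => F τ := by
      filter_upwards with w using hconst _ _
    exact (hasDerivAt_const (τ : ℂ) (F τ)).congr_of_eventuallyEq this
  simpa using h1.unique h2

/-- **Diamond operators**: if `a` is the automorphism `γ ↦ δ γ δ⁻¹` of `Γ` (`δ ∈ SL(2,ℤ)`) and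
`f ∣[2] δ = c • f`, then `ψ ∘ a = c • ψ`. -/
theorem compAut_periodOf (hF : IsCuspPrimitive f F) (hinv : ∀ γ ∈ Γ, f ∣[(2 : ℤ)] γ = f)
    (a : ↥Γ ≃* ↥Γ) (δ : SL(2, ℤ)) (ha : ∀ γ : ↥Γ, ((a γ : ↥Γ) : SL(2, ℤ)) = δ * γ * δ⁻¹)
    {c : ℂ} (hδ : f ∣[(2 : ℤ)] δ = c • f) :
    compAut a ℂ (hF.periodOf hinv) = c • hF.periodOf hinv := by
  obtain ⟨K, hK⟩ := hF.exists_const_of_slash_eq_smul hδ
  refine AddMonoidHom.ext fun γ' => ?_
  obtain ⟨γ, rfl⟩ := Additive.ofMul.surjective γ'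
  rw [compAut_apply, AddMonoidHom.smul_apply, smul_eq_mul,
    hF.periodOf_apply hinv (a γ) (δ • UpperHalfPlane.I),
    hF.periodOf_apply hinv γ UpperHalfPlane.I, ha γ]
  have e : (δ * (γ : SL(2, ℤ)) * δ⁻¹) • (δ • UpperHalfPlane.I) =
      δ • ((γ : SL(2, ℤ)) • UpperHalfPlane.I) := by
    rw [mul_smul, mul_smul, inv_smul_smul]
  rw [e]
  have h1 := hK ((γ : SL(2, ℤ)) • UpperHalfPlane.I)
  have h2 := hK UpperHalfPlane.I
  linear_combination h1 - h2

/-- **Hecke operators**: if `D` is a coset system of `Γ` in `GL₂(ℝ)⁺` and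
`∑ x, f ∣[2] D.rep x = b • f`, then `D.transfer ψ = b • ψ`. -/
theorem transfer_periodOf {ι : Type*} [Fintype ι] (hF : IsCuspPrimitive f F)
    (hinv : ∀ γ ∈ Γ, f ∣[(2 : ℤ)] γ = f) (D : CosetReps (embOf Γ) ι)
    (hpos : ∀ x, 0 < (D.rep x).det.val) {b : ℂ}
    (hT : ∑ x, f ∣[(2 : ℤ)] D.rep x = b • f) :
    D.transfer (hF.periodOf hinv) = b • hF.periodOf hinv := by
  -- `G τ = ∑ x, F (r_x τ) - b F τ` is constant
  have h1 : ∀ τ : ℍ, HasDerivAt ((fun τ : ℍ => ∑ x, F (D.rep x • τ)) ∘ ofComplex)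
      (b * f τ) τ := by
    intro τ
    have h := HasDerivAt.fun_sum (u := Finset.univ)
      (fun x _ => hasDerivAt_comp_smul hF.hasDeriv (hpos x) τ)
    have e : ∑ x, (f ∣[(2 : ℤ)] D.rep x) τ = b * f τ := by
      have := congrFun hT τ
      rw [Finset.sum_apply, Pi.smul_apply, smul_eq_mul] at this
      exact this
    rw [e] at h
    refine h.congr_of_eventuallyEq ?_
    filter_upwards with w
    simp [Function.comp_apply]
  have h2 : ∀ τ : ℍ, HasDerivAt ((fun τ : ℍ => b * F τ) ∘ ofComplex) (b * f τ) τ :=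
    fun τ => (hF.hasDeriv τ).const_mul b
  obtain ⟨K, hK⟩ := exists_const_of_hasDerivAt_eq' h1 h2
  refine AddMonoidHom.ext fun γ' => ?_
  obtain ⟨γ, rfl⟩ := Additive.ofMul.surjective γ'
  rw [CosetReps.transfer_apply, AddMonoidHom.smul_apply, smul_eq_mul,
    hF.periodOf_apply hinv γ UpperHalfPlane.I]
  -- periods of the cocycle elements
  have h3 : ∀ x, hF.periodOf hinv (Additive.ofMul (D.coc γ x)) =
      F (D.rep x • ((γ : SL(2, ℤ)) • UpperHalfPlane.I)) -
        F (D.rep (D.next γ x) • UpperHalfPlane.I) := by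
    intro x
    rw [hF.periodOf_apply hinv (D.coc γ x) (D.rep (D.next γ x) • UpperHalfPlane.I)]
    congr 1
    have hrel := D.rel γ x
    rw [embOf_apply, embOf_apply] at hrel
    have e1 : ((D.coc γ x : ↥Γ) : SL(2, ℤ)) • (D.rep (D.next γ x) • UpperHalfPlane.I) =
        (mapGL ℝ ((D.coc γ x : ↥Γ) : SL(2, ℤ)) * D.rep (D.next γ x)) • UpperHalfPlane.I := by
      rw [mul_smul]
      rfl
    have e2 : D.rep x • ((γ : SL(2, ℤ)) • UpperHalfPlane.I) =
        (D.rep x * mapGL ℝ (γ : SL(2, ℤ))) • UpperHalfPlane.I := by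
      rw [mul_smul]
      rfl
    rw [e1, e2, hrel]
  simp_rw [h3]
  rw [Finset.sum_sub_distrib]
  have h4 : ∑ x, F (D.rep (D.next γ x) • UpperHalfPlane.I) =
      ∑ x, F (D.rep x • UpperHalfPlane.I) :=
    Equiv.sum_comp (D.nextEquiv γ) (fun x => F (D.rep x • UpperHalfPlane.I))
  rw [h4]
  have h5 := hK ((γ : SL(2, ℤ)) • UpperHalfPlane.I)
  have h6 := hK UpperHalfPlane.I
  linear_combination h5 - h6

end IsCuspPrimitive

end Fermat.Agent.DS.Kum
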