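import Mathlib
import Fermat.Agent.S22.SeparationE
import Fermat.Agent.S22.PeriodPoly
import Fermat.Agent.DS.Kum.PeriodGen
import Fermat.Agent.DS.Kum.Gamma1Reps

/-!
# PROGRAMME III (S48), block X1-KUM, leaf KUM-3b (helper9): the Eichler primitive and the period
homomorphism of a weight two cusp form on `Γ ∋ T`, and the parabolic eigenvector on `Γ₁(M)`

* `isCuspidalPeriodic_of_one_mem`, `exists_isCuspidalPeriodic_translate'` : cusp forms on a
  subgroup of finite index containing `T` are cuspidal-periodic, and so are their translates;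
* `eichlerPrimitiveOf f := E 1 f 1` (main's q-series primitive), `isCuspPrimitive_eichlerPrimitiveOf`;
* `periodHomOf hΓ f : Additive Γ →+ ℂ`, `periodHomOf_apply`, `periodHomOf_isParabolicHom`,
  `periodHomOf_ne_zero`;
* **`exists_parabolic_eigenvector`** : for `g ≠ 0` in `S₂(Γ₁(M))` with nebentypus `χ` and
  `U_p g + χ(p) • g ∣[2] diag(p,1) = b_p • g` for the primes `p ∤ M`, the period homomorphism `ψ` of `g`
  is a nonzero parabolic homomorphism with `hecke1 M ℂ hp hpM ψ = b_p • ψ` and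
  `diamondUnit M ℂ d ψ = χ(d) • ψ`.
-/

set_option autoImplicit false
set_option linter.unusedSectionVars false
set_option linter.style.haveILetI false

open Complex Filter Topology Function
open UpperHalfPlane hiding I
open Matrix.SpecialLinearGroup CongruenceSubgroup ModularForm ModularCurve.Period
open scoped MatrixGroups ModularForm Manifold Pointwise
open P2MW.S_ModularForm_heckeT_slash_eq_self_of_mem_Gamma0.ModularForm.HeckeSlashInvariance

noncomputable section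

namespace Fermat.Agent.DS.Kum

open Fermat.Agent.Jac Fermat.Agent.S22 Fermat.Agent.S22.EichlerPrim

section General

variable {Γ : Subgroup SL(2, ℤ)} [Γ.FiniteIndex] {k : ℤ}

/-- A cusp form on `Γ ∋ T` is cuspidal-periodic with period `1`. -/
theorem isCuspidalPeriodic_of_one_mem
    (hΓ : (1 : ℝ) ∈ (Γ : Subgroup (GL (Fin 2) ℝ)).strictPeriods)
    (f : CuspForm (Γ : Subgroup (GL (Fin 2) ℝ)) k) : IsCuspidalPeriodic 1 ⇑f := by
  have : Fact (IsCusp OnePoint.infty (Γ : Subgroup (GL (Fin 2) ℝ))) :=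
    ⟨Subgroup.isCusp_of_mem_strictPeriods one_pos hΓ⟩
  exact ⟨one_pos, SlashInvariantFormClass.periodic_comp_ofComplex f hΓ, CuspFormClass.holo f,
    CuspFormClass.zero_at_infty f⟩

/-- The `SL(2,ℤ)`-translates of a cusp form on `Γ` are cuspidal-periodic. -/
theorem exists_isCuspidalPeriodic_translate' (f : CuspForm (Γ : Subgroup (GL (Fin 2) ℝ)) k)
    (σ : SL(2, ℤ)) : ∃ h : ℝ, IsCuspidalPeriodic h (⇑f ∣[k] σ) := by
  obtain ⟨M, hM0, hM⟩ := Subgroup.IsArithmetic.exists_nat_mem_strictPeriods_conj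
    (Γ : Subgroup (GL (Fin 2) ℝ))
  have hmem := hM σ⁻¹
  rw [map_inv] at hmem
  have hMpos : (0 : ℝ) < M := by exact_mod_cast hM0
  refine ⟨M, ?_⟩
  set g := CuspForm.translate f (Matrix.SpecialLinearGroup.mapGL ℝ σ) with hg
  have : Fact (IsCusp OnePoint.infty
      (ConjAct.toConjAct (Matrix.SpecialLinearGroup.mapGL ℝ σ)⁻¹ •
        (Γ : Subgroup (GL (Fin 2) ℝ)))) :=
    ⟨Subgroup.isCusp_of_mem_strictPeriods hMpos hmem⟩
  exact ⟨hMpos, SlashInvariantFormClass.periodic_comp_ofComplex g hmem, CuspFormClass.holo g,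
    CuspFormClass.zero_at_infty g⟩

/-- The Eichler primitive of a weight two cuspidal `1`-periodic function. -/
def eichlerPrimitiveOf (f : ℍ → ℂ) : ℍ → ℂ := fun τ => EichlerPrim.E 1 f 1 (τ : ℂ)

theorem eichlerPrimitiveOf_eq_EI (f : ℍ → ℂ) : eichlerPrimitiveOf f = EI 1 f 0 := rfl

theorem hasDerivAt_eichlerPrimitiveOf {f : ℍ → ℂ} (hf : IsCuspidalPeriodic 1 f) (τ : ℍ) :
    HasDerivAt (eichlerPrimitiveOf f ∘ ofComplex) (f τ) ↑τ := by
  have h1 : HasDerivAt (EichlerPrim.E 1 f 1) (f τ) (τ : ℂ) := by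
    have := hasDerivAt_E hf 0 τ.im_pos
    rwa [E_zero_apply hf τ] at this
  refine h1.congr_of_eventuallyEq ?_
  have hopen : {z : ℂ | 0 < z.im} ∈ 𝓝 (τ : ℂ) :=
    (isOpen_lt continuous_const Complex.continuous_im).mem_nhds τ.im_pos
  filter_upwards [hopen] with z hz
  simp [eichlerPrimitiveOf, Function.comp_apply, ofComplex_apply_of_im_pos hz]

theorem tendsto_eichlerPrimitiveOf {f : ℍ → ℂ} (hf : IsCuspidalPeriodic 1 f) :
    Tendsto (eichlerPrimitiveOf f) atImInfty (𝓝 0) :=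
  sepE_isZeroAtImInfty_E hf 1

/-- Behaviour of the Eichler primitive under `δ ∈ SL(2,ℤ)`. -/
theorem exists_eichlerPrimitiveOf_smul_eq {f : ℍ → ℂ} (hf : IsCuspidalPeriodic 1 f)
    (δ : SL(2, ℤ)) {h' : ℝ} (hf' : IsCuspidalPeriodic h' (f ∣[(2 : ℤ)] δ)) :
    ∃ c : ℂ, ∀ τ : ℍ, eichlerPrimitiveOf f (δ • τ) = EI h' (f ∣[(2 : ℤ)] δ) 0 τ + c := by
  have hdet : (Matrix.SpecialLinearGroup.mapGL ℝ δ : GL (Fin 2) ℝ).det.val = 1 := by simp
  have hslash' : f ∣[((0 : ℕ) : ℤ) + 2]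
      (Matrix.SpecialLinearGroup.mapGL ℝ δ : GL (Fin 2) ℝ) = f ∣[(2 : ℤ)] δ := by
    simp only [Nat.cast_zero, zero_add]
    rfl
  obtain ⟨P, hP, hPe⟩ := slash_EI hf hf' 0 (Matrix.SpecialLinearGroup.mapGL ℝ δ)
    (by rw [hdet]; exact one_pos) hslash'
  refine ⟨P.coeff 0, fun τ => ?_⟩
  have e := hPe τ
  rw [hdet, Complex.ofReal_one, one_pow, one_mul] at e
  have hPc : P = Polynomial.C (P.coeff 0) :=
    Polynomial.eq_C_of_natDegree_le_zero hP
  rw [hPc, Polynomial.eval_C] at e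
  rw [← e, eichlerPrimitiveOf_eq_EI]
  have : (EI 1 f 0 ∣[-((0 : ℕ) : ℤ)] (Matrix.SpecialLinearGroup.mapGL ℝ δ : GL (Fin 2) ℝ)) =
      (EI 1 f 0 ∣[(0 : ℤ)] δ) := by
    simp only [Nat.cast_zero, neg_zero]
    rfl
  rw [this, ModularForm.SL_slash_apply]
  simp

/-- **The Eichler primitive of a cusp form on `Γ ∋ T` is a primitive with limits at all cusps.** -/
theorem isCuspPrimitive_eichlerPrimitiveOf
    (hΓ : (1 : ℝ) ∈ (Γ : Subgroup (GL (Fin 2) ℝ)).strictPeriods)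
    (f : CuspForm (Γ : Subgroup (GL (Fin 2) ℝ)) 2) :
    IsCuspPrimitive ⇑f (eichlerPrimitiveOf ⇑f) := by
  have hf := isCuspidalPeriodic_of_one_mem hΓ f
  refine ⟨hasDerivAt_eichlerPrimitiveOf hf, fun δ => ?_⟩
  obtain ⟨h', hf'⟩ := exists_isCuspidalPeriodic_translate' f δ
  obtain ⟨c, hc⟩ := exists_eichlerPrimitiveOf_smul_eq hf δ hf'
  refine ⟨c, ?_⟩
  have h0 : Tendsto (EI h' (⇑f ∣[(2 : ℤ)] δ) 0) atImInfty (𝓝 0) :=
    sepE_isZeroAtImInfty_E hf' 1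
  have h1 : Tendsto (fun w : ℍ => EI h' (⇑f ∣[(2 : ℤ)] δ) 0 w + c) atImInfty (𝓝 (0 + c)) :=
    h0.add_const c
  rw [zero_add] at h1
  exact h1.congr fun w => (hc w).symm

theorem slash_eq_of_mem (f : CuspForm (Γ : Subgroup (GL (Fin 2) ℝ)) k) :
    ∀ γ ∈ Γ, ⇑f ∣[k] γ = ⇑f := fun _ hγ =>
  SlashInvariantFormClass.slash_action_eq f _ (Subgroup.mem_map_of_mem _ hγ)

/-- **The period homomorphism** of a weight two cusp form on `Γ ∋ T`. -/
def periodHomOf (hΓ : (1 : ℝ) ∈ (Γ : Subgroup (GL (Fin 2) ℝ)).strictPeriods)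
    (f : CuspForm (Γ : Subgroup (GL (Fin 2) ℝ)) 2) : Additive ↥Γ →+ ℂ :=
  (isCuspPrimitive_eichlerPrimitiveOf hΓ f).periodOf (slash_eq_of_mem f)

theorem periodHomOf_apply (hΓ : (1 : ℝ) ∈ (Γ : Subgroup (GL (Fin 2) ℝ)).strictPeriods)
    (f : CuspForm (Γ : Subgroup (GL (Fin 2) ℝ)) 2) (γ : ↥Γ) (z : ℍ) :
    periodHomOf hΓ f (Additive.ofMul γ) =
      eichlerPrimitiveOf ⇑f ((γ : SL(2, ℤ)) • z) - eichlerPrimitiveOf ⇑f z :=
  IsCuspPrimitive.periodOf_apply _ _ γ z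

theorem periodHomOf_isParabolicHom
    (hΓ : (1 : ℝ) ∈ (Γ : Subgroup (GL (Fin 2) ℝ)).strictPeriods)
    (f : CuspForm (Γ : Subgroup (GL (Fin 2) ℝ)) 2) : IsParabolicHom Γ (periodHomOf hΓ f) :=
  IsCuspPrimitive.periodOf_isParabolicHom _ _

theorem periodHomOf_ne_zero (hΓ : (1 : ℝ) ∈ (Γ : Subgroup (GL (Fin 2) ℝ)).strictPeriods)
    {f : CuspForm (Γ : Subgroup (GL (Fin 2) ℝ)) 2} (hf : f ≠ 0) : periodHomOf hΓ f ≠ 0 := by
  refine IsCuspPrimitive.periodOf_ne_zero _ _ fun h0 => hf ?_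
  ext τ
  exact congrFun h0 τ

end General

/-! ### `Γ₁(M)` -/

section GammaOne

variable (M : ℕ) [NeZero M]

theorem one_mem_strictPeriods_Gamma1 :
    (1 : ℝ) ∈ (Gamma1 M : Subgroup (GL (Fin 2) ℝ)).strictPeriods := by
  rw [strictPeriods_Gamma1]
  exact AddSubgroup.mem_zmultiples 1

/-- the sum of the translates of `f` by the representatives of `T1Reps` -/
theorem sum_slash_t1Rep {p : ℕ} [NeZero p] (f : ℍ → ℂ) (σ : SL(2, ℤ)) {c : ℂ}
    (hσ : f ∣[(2 : ℤ)] σ = c • f) :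
    ∑ x : OnePoint (ZMod p), f ∣[(2 : ℤ)] t1Rep σ p x =
      heckeU 2 p f + c • (f ∣[(2 : ℤ)] heckeDiagMatrix p) := by
  refine (Fintype.sum_option (fun x : OnePoint (ZMod p) => f ∣[(2 : ℤ)] t1Rep σ p x)).trans ?_
  rw [add_comm]
  congr 1
  · rw [heckeU_eq_sum_zmod]
    refine Finset.sum_congr rfl fun j _ => ?_
    have : t1Rep σ p (some j) = heckeMatrix p j.val := t1Rep_coe σ j
    rw [this]
  · have h1 : t1Rep σ p (none : Option (ZMod p)) = mapGL ℝ σ * heckeDiagMatrix p := rfl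
    rw [h1, SlashAction.slash_mul]
    have h2 : f ∣[(2 : ℤ)] (mapGL ℝ σ : GL (Fin 2) ℝ) = c • f := hσ
    rw [h2, smul_slash_pos _ _ (det_heckeDiagMatrix_pos p)]

/-- **X1-KUM-3: the parabolic eigenvector of an (anemic) eigenform on `Γ₁(M)`.**
Let `g ≠ 0` be a weight two cusp form on `Γ₁(M)` with nebentypus `χ`
(`g ∣[2] δ = χ(d_δ) • g` for `δ ∈ Γ₀(M)`), such that for every prime `p ∤ M`
`U_p g + χ(p) • g ∣[2] diag(p,1) = b_p • g`.  Then the period homomorphism `ψ` of `g` is a nonzero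
parabolic homomorphism `Γ₁(M) → ℂ` with `T_p ψ = b_p • ψ` and `⟨d⟩ ψ = χ(d) • ψ`. -/
theorem exists_parabolic_eigenvector (g : CuspForm (Gamma1 M : Subgroup (GL (Fin 2) ℝ)) 2)
    (hg : g ≠ 0) (χ : (ZMod M)ˣ → ℂ)
    (hneb : ∀ (δ : ↥(Gamma0 M)) (d : (ZMod M)ˣ), Gamma0Map M δ = (d : ZMod M) →
      ⇑g ∣[(2 : ℤ)] (δ : SL(2, ℤ)) = χ d • ⇑g)
    (b : ∀ p : ℕ, p.Prime → ¬ p ∣ M → ℂ)
    (hT : ∀ (p : ℕ) (hp : p.Prime) (hpM : ¬ p ∣ M),
      heckeU 2 p ⇑g + χ (primeUnit M hp hpM) • (⇑g ∣[(2 : ℤ)] heckeDiagMatrix p) =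
        b p hp hpM • ⇑g) :
    ∃ ψ : Additive ↥(Gamma1 M) →+ ℂ, ψ ≠ 0 ∧ IsParabolicHom (Gamma1 M) ψ ∧
      (∀ (p : ℕ) (hp : p.Prime) (hpM : ¬ p ∣ M), hecke1 M ℂ hp hpM ψ = b p hp hpM • ψ) ∧
      ∀ d : (ZMod M)ˣ, diamondUnit M ℂ d ψ = χ d • ψ := by
  have hΓ := one_mem_strictPeriods_Gamma1 M
  have hF := isCuspPrimitive_eichlerPrimitiveOf hΓ g
  have hinv := slash_eq_of_mem g
  refine ⟨periodHomOf hΓ g, periodHomOf_ne_zero hΓ hg, periodHomOf_isParabolicHom hΓ g,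
    fun p hp hpM => ?_, fun d => ?_⟩
  · haveI : NeZero p := ⟨hp.ne_zero⟩
    have hσ := gamma0Map_sigmaOf M hp hpM
    refine hF.transfer_periodOf hinv (T1Reps M hp hpM (sigmaOf M hp hpM) hσ) (fun x => ?_) ?_
    · rw [T1Reps_rep, t1Rep, map_mul, Units.val_mul]
      refine mul_pos (by simp) ?_
      induction x using OnePoint.rec with
      | infty => exact det_heckeDiagMatrix_pos p
      | coe j => exact det_heckeMatrix_pos p _
    · have h1 := sum_slash_t1Rep (p := p) ⇑g ((sigmaOf M hp hpM : ↥(Gamma0 M)) : SL(2, ℤ))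
        (hneb (sigmaOf M hp hpM) (primeUnit M hp hpM)
          (by rw [hσ, coe_primeUnit]))
      exact h1.trans (hT p hp hpM)
  · obtain ⟨δ, hδ⟩ := exists_gamma0Map_eq M d
    rw [diamondUnit_eq M d δ hδ]
    exact hF.compAut_periodOf hinv (conjGamma1 M δ) (δ : SL(2, ℤ)) (fun γ => rfl) (hneb δ d hδ)

/-- **From the `q`-coefficient relations to the functional equation.** If the `q`-coefficients of
a weight two cusp form `g` on `Γ ∋ T` satisfy
`a_{pn} + c p a_{n/p} = b a_n` for all `n`, then `U_p g + c • g ∣[2] diag(p,1) = b • g`. -/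
theorem heckeU_add_smul_slash_eq_of_qCoeff {Γ : Subgroup SL(2, ℤ)} [Γ.FiniteIndex]
    (hΓ : (1 : ℝ) ∈ (Γ : Subgroup (GL (Fin 2) ℝ)).strictPeriods)
    (g : CuspForm (Γ : Subgroup (GL (Fin 2) ℝ)) 2) {p : ℕ} (hp : p ≠ 0) (c b : ℂ)
    (hrel : ∀ n : ℕ, ModularFormClass.qCoeff g (p * n) +
      c * (p : ℂ) * (if p ∣ n then ModularFormClass.qCoeff g (n / p) else 0) =
        b * ModularFormClass.qCoeff g n) :
    heckeU 2 p ⇑g + c • (⇑g ∣[(2 : ℤ)] heckeDiagMatrix p) = b • ⇑g := by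
  have hf := isCuspidalPeriodic_of_one_mem hΓ g
  have hbdd : IsBoundedAtImInfty ⇑g := hf.zero.isBoundedAtImInfty
  funext τ
  have hA := P2MW.S_ModularFormClass_qCoeff_heckeU.M4cP1W2.hasSum_average hp hf.per hf.hol hbdd τ
  have hD := P2MW.S_ModularFormClass_qCoeff_heckeU.M4cP1W2.hasSum_diag hp hf.per hf.hol hbdd 2 τ
  have hG : HasSum (fun m => ModularFormClass.qCoeff g m • Periodic.qParam 1 τ ^ m) (g τ) :=
    UpperHalfPlane.hasSum_qExpansion one_pos hf.per hf.hol hbdd τ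
  have e1 : ((2 : ℤ) - 1) = 1 := by norm_num
  rw [e1, zpow_one] at hD
  have hL := hA.add (hD.mul_left c)
  have hR := hG.mul_left b
  have hLval : (heckeU 2 p ⇑g + c • (⇑g ∣[(2 : ℤ)] heckeDiagMatrix p)) τ =
      (p : ℂ)⁻¹ * ∑ j ∈ Finset.range p, g (heckeMatrix p j • τ) +
        c * ((p : ℂ) * g (heckeDiagMatrix p • τ)) := by
    rw [Pi.add_apply, Pi.smul_apply, smul_eq_mul, heckeU_apply 2 hp,
      slash_heckeDiagMatrix_apply 2 hp, e1, zpow_one]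
  rw [hLval, Pi.smul_apply, smul_eq_mul]
  refine hL.unique ?_
  have hfun : (fun n : ℕ => ModularFormClass.qCoeff (⇑g) (n * p) * Periodic.qParam 1 ↑τ ^ n +
      c * if p ∣ n then ↑p * ModularFormClass.qCoeff (⇑g) (n / p) * Periodic.qParam 1 ↑τ ^ n
        else 0) =
      fun n : ℕ => b * ModularFormClass.qCoeff (⇑g) n • Periodic.qParam 1 ↑τ ^ n := by
    funext n
    have h := hrel n
    rw [mul_comm p n] at h
    rw [smul_eq_mul]
    split_ifs at h ⊢ with hpn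
    · linear_combination (Periodic.qParam 1 τ ^ n) * h
    · rw [mul_zero, add_zero] at h ⊢
      linear_combination (Periodic.qParam 1 τ ^ n) * h
  rw [hfun]
  exact hR

/-- **X1-KUM-3, `q`-coefficient form** (the seam of helper25's alert): `g ≠ 0` in `S₂(Γ₁(M))` with
nebentypus `χ` and `a_{pn}(g) + χ(p) p a_{n/p}(g) = b_p a_n(g)` for all primes `p ∤ M` and all `n`;
then the period homomorphism of `g` is a nonzero parabolic eigenvector of the `T_p` (eigenvalues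
`b_p`) and of the `⟨d⟩` (eigenvalues `χ(d)`). No normalisation of `g` is assumed. -/
theorem exists_parabolic_eigenvector_of_qCoeff
    (g : CuspForm (Gamma1 M : Subgroup (GL (Fin 2) ℝ)) 2) (hg : g ≠ 0) (χ : (ZMod M)ˣ → ℂ)
    (hneb : ∀ (δ : ↥(Gamma0 M)) (d : (ZMod M)ˣ), Gamma0Map M δ = (d : ZMod M) →
      ⇑g ∣[(2 : ℤ)] (δ : SL(2, ℤ)) = χ d • ⇑g)
    (b : ∀ p : ℕ, p.Prime → ¬ p ∣ M → ℂ)
    (hrel : ∀ (p : ℕ) (hp : p.Prime) (hpM : ¬ p ∣ M) (n : ℕ),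
      ModularFormClass.qCoeff g (p * n) + χ (primeUnit M hp hpM) * (p : ℂ) *
        (if p ∣ n then ModularFormClass.qCoeff g (n / p) else 0) =
          b p hp hpM * ModularFormClass.qCoeff g n) :
    ∃ ψ : Additive ↥(Gamma1 M) →+ ℂ, ψ ≠ 0 ∧ IsParabolicHom (Gamma1 M) ψ ∧
      (∀ (p : ℕ) (hp : p.Prime) (hpM : ¬ p ∣ M), hecke1 M ℂ hp hpM ψ = b p hp hpM • ψ) ∧
      ∀ d : (ZMod M)ˣ, diamondUnit M ℂ d ψ = χ d • ψ :=
  exists_parabolic_eigenvector M g hg χ hneb b fun p hp hpM =>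
    heckeU_add_smul_slash_eq_of_qCoeff (one_mem_strictPeriods_Gamma1 M) g hp.ne_zero _ _
      (hrel p hp hpM)

end GammaOne

end Fermat.Agent.DS.Kum
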