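import Mathlib
import Fermat.Agent.Jac.Socle
import Fermat.Agent.DS.Kum.TransferGen

/-!
# PROGRAMME III (S48), block X1-KUM, leaf KUM-ALG (helper9): the lattice support lemma, for an
ARBITRARY index type of Hecke operators

The `ι`-generic port of `Jac/LamAnn.lean` + `Jac/LamSupport.lean` (written there for the Prelude's
`HeckeAlg = ℤ[X_l, l prime]` and `Γ₀(N)`).  Here the Hecke algebra is `MvPolynomial ι ℤ` for any
index type `ι` (for `Γ₁(M)`: `ι = {p prime, p ∤ M} ⊕ (ℤ/M)ˣ`, no `U_q`).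

* `polyEval T hT : MvPolynomial ι ℤ →+* Module.End ℤ Λ` for a commuting family `T : ι → End Λ`,
  `polyEval_X`, `polyEval_C`, `polyModule T hT`, `map_polyEval` (equivariance of additive maps
  intertwining the generators);
* `aeval_eq_zero_of_polyEval_eq_zero` : if a polynomial `t` kills the lattice `Λ`, it vanishes at
  the system of eigenvalues of every nonzero eigenvector in the complex span of the image of `Λ`;
* `isMaximal_ker_aeval_of_lattice` : the eigen-ideal is maximal (no integrality hypothesis);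
* `exists_eigen_torsion` : **the support lemma**: `Λ` a finitely generated abelian group with
  commuting `T_i`, `J` an abelian group with commuting `S_i`, `ρ : Λ →+ J` with kernel `ℓ Λ`
  intertwining `T_i` and `S_i`, a nonzero complex eigenvector with eigenvalues `a_i ∈ 𝒪`,
  `φ : 𝒪 →+* k` with `ℓ = 0` in `k`: there is `x ≠ 0` in `J` with `ℓ x = 0` killed by the
  eigen-ideal `ker (X_i ↦ φ (a_i))`;
* `exists_eigen_torsion_of_parabolic` : the same with `Λ = LamOf Γ` and the eigenvector a nonzero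
  parabolic homomorphism `Γ → ℂ`.
-/

set_option autoImplicit false
set_option linter.unusedSectionVars false
set_option linter.style.haveILetI false

open ModularCurve.Period
open scoped MatrixGroups

noncomputable section

namespace Fermat.Agent.DS.Kum

open Fermat.Agent.Jac

/-! ### Evaluation of polynomials at a commuting family -/

section Eval

variable {ι : Type*} {Λ : Type*} [AddCommGroup Λ] (T : ι → Module.End ℤ Λ)

theorem isMulCommutative_adjoin_range (hT : ∀ i j, Commute (T i) (T j)) :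
    IsMulCommutative (Algebra.adjoin ℤ (Set.range T)) :=
  Algebra.isMulCommutative_adjoin ℤ (by
    rintro _ ⟨i, rfl⟩ _ ⟨j, rfl⟩
    exact hT i j)

open scoped IsMulCommutative in
/-- evaluation with values in the commutative subalgebra generated by the family -/
def polyEvalAux (hT : ∀ i j, Commute (T i) (T j)) :
    MvPolynomial ι ℤ →ₐ[ℤ] (Algebra.adjoin ℤ (Set.range T) : Subalgebra ℤ (Module.End ℤ Λ)) :=
  haveI := isMulCommutative_adjoin_range T hT
  MvPolynomial.aeval fun i =>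
    (⟨T i, Algebra.subset_adjoin (Set.mem_range_self i)⟩ : Algebra.adjoin ℤ (Set.range T))

/-- evaluation of integral polynomials at a commuting family of endomorphisms -/
def polyEval (hT : ∀ i j, Commute (T i) (T j)) : MvPolynomial ι ℤ →+* Module.End ℤ Λ :=
  ((Algebra.adjoin ℤ (Set.range T)).val.comp (polyEvalAux T hT)).toRingHom

variable {T}

open scoped IsMulCommutative in
theorem polyEval_X (hT : ∀ i j, Commute (T i) (T j)) (i : ι) :
    polyEval T hT (MvPolynomial.X i) = T i := by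
  haveI := isMulCommutative_adjoin_range T hT
  show ((polyEvalAux T hT (MvPolynomial.X i) : Algebra.adjoin ℤ (Set.range T)) :
    Module.End ℤ Λ) = T i
  unfold polyEvalAux
  rw [MvPolynomial.aeval_X]

theorem polyEval_C (hT : ∀ i j, Commute (T i) (T j)) (a : ℤ) :
    polyEval T hT (MvPolynomial.C a) = (a : Module.End ℤ Λ) := by
  rw [← MvPolynomial.algebraMap_eq, eq_intCast, map_intCast]

variable (T) in
/-- the `ℤ[X_i]`-module structure attached to a commuting family of endomorphisms -/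
@[reducible] def polyModule (hT : ∀ i j, Commute (T i) (T j)) : Module (MvPolynomial ι ℤ) Λ :=
  Module.compHom Λ (polyEval T hT)

theorem polyModule_smul_def (hT : ∀ i j, Commute (T i) (T j)) (t : MvPolynomial ι ℤ) (x : Λ) :
    (letI := polyModule T hT; t • x) = polyEval T hT t x := rfl

/-- An additive map intertwining the generators intertwines all polynomials. -/
theorem map_polyEval {J : Type*} [AddCommGroup J] {S : ι → Module.End ℤ J}
    (hT : ∀ i j, Commute (T i) (T j)) (hS : ∀ i j, Commute (S i) (S j))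
    (f : Λ →+ J) (hf : ∀ i x, f (T i x) = S i (f x)) (t : MvPolynomial ι ℤ) (x : Λ) :
    f (polyEval T hT t x) = polyEval S hS t (f x) := by
  induction t using MvPolynomial.induction_on generalizing x with
  | C a =>
    rw [polyEval_C, polyEval_C]
    simp
  | add p q hp hq =>
    rw [map_add, map_add, LinearMap.add_apply, LinearMap.add_apply, map_add, hp, hq]
  | mul_X p i hp =>
    rw [map_mul, map_mul, polyEval_X, polyEval_X, Module.End.mul_apply,
      Module.End.mul_apply, hp, hf]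

theorem mem_annihilator_polyModule_iff (hT : ∀ i j, Commute (T i) (T j))
    (t : MvPolynomial ι ℤ) :
    (letI := polyModule T hT; t ∈ Module.annihilator (MvPolynomial ι ℤ) Λ) ↔
      polyEval T hT t = 0 := by
  letI := polyModule T hT
  rw [Module.mem_annihilator]
  constructor
  · intro h
    exact LinearMap.ext fun x => h x
  · intro h x
    show polyEval T hT t x = 0
    rw [h]
    rfl

end Eval

/-! ### The key step: polynomials killing the lattice vanish at complex eigensystems -/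

section Key

variable {ι : Type*} {Λ : Type*} [AddCommGroup Λ] {T : ι → Module.End ℤ Λ}
  {V : Type*} [AddCommGroup V] [Module ℂ V]

/-- **Key step.** Let `e : Λ →+ V` intertwine the `T i` with `ℂ`-linear operators `Tc i` of a
complex vector space `V`, and let `ψ ≠ 0` be a common eigenvector of the `Tc i`, with eigenvalues
`a i`, in the `ℂ`-span of `e (Λ)`. If the polynomial `t` acts as zero on `Λ`, then
`t (a) = 0`. -/
theorem aeval_eq_zero_of_polyEval_eq_zero (hT : ∀ i j, Commute (T i) (T j))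
    (e : Λ →+ V) (Tc : ι → V →ₗ[ℂ] V) (he : ∀ i x, e (T i x) = Tc i (e x))
    {ψ : V} (hψ0 : ψ ≠ 0) (hψspan : ψ ∈ Submodule.span ℂ (Set.range e)) (a : ι → ℂ)
    (hψ : ∀ i, Tc i ψ = a i • ψ) (t : MvPolynomial ι ℤ) (ht : polyEval T hT t = 0) :
    MvPolynomial.aeval a t = 0 := by
  classical
  -- write `ψ` as a finite combination
  obtain ⟨n, c, lam0, hsum⟩ : ∃ (n : ℕ) (c : Fin n → ℂ) (lam : Fin n → Λ),
      ψ = ∑ k, c k • e (lam k) := by
    rw [← Set.image_univ, Submodule.mem_span_image_iff_exists_fun] at hψspan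
    obtain ⟨s, -, c, hc⟩ := hψspan
    refine ⟨s.card, fun k => c ⟨(s.equivFin.symm k : Λ), (s.equivFin.symm k).2⟩,
      fun k => (s.equivFin.symm k : Λ), ?_⟩
    rw [← hc]
    rw [← Equiv.sum_comp s.equivFin.symm]
  -- the general claim, for all families `lam` with the same coefficients
  have claim : ∀ (t : MvPolynomial ι ℤ) (lam : Fin n → Λ) (ψ' : V),
      ψ' = ∑ k, c k • e (lam k) → (∀ i, Tc i ψ' = a i • ψ') →
      ∑ k, c k • e (polyEval T hT t (lam k)) = MvPolynomial.aeval a t • ψ' := by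
    intro t
    induction t using MvPolynomial.induction_on with
    | C z =>
      intro lam ψ' h1 _
      rw [polyEval_C, MvPolynomial.aeval_C, h1, Finset.smul_sum]
      refine Finset.sum_congr rfl fun k _ => ?_
      rw [Module.End.intCast_apply, map_zsmul, smul_comm (c k) z, eq_intCast,
        Int.cast_smul_eq_zsmul]
    | add p q hp hq =>
      intro lam ψ' h1 h2
      rw [map_add, map_add, add_smul, ← hp lam ψ' h1 h2, ← hq lam ψ' h1 h2,
        ← Finset.sum_add_distrib]
      refine Finset.sum_congr rfl fun k _ => ?_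
      rw [LinearMap.add_apply, map_add, smul_add]
    | mul_X p i hp =>
      intro lam ψ' h1 h2
      have h3 : a i • ψ' = ∑ k, c k • e (T i (lam k)) := by
        rw [← h2 i, h1, map_sum]
        refine Finset.sum_congr rfl fun k _ => ?_
        rw [map_smul, he]
      have h4 : ∀ j, Tc j (a i • ψ') = a j • (a i • ψ') := by
        intro j
        rw [map_smul, h2 j, smul_comm]
      have := hp (fun k => T i (lam k)) (a i • ψ') h3 h4
      rw [map_mul, map_mul, polyEval_X, MvPolynomial.aeval_X, mul_smul]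
      simp only [Module.End.mul_apply]
      exact this
  have h := claim t lam0 ψ hsum hψ
  rw [ht] at h
  simp only [LinearMap.zero_apply, map_zero, smul_zero, Finset.sum_const_zero] at h
  rcases smul_eq_zero.mp h.symm with h | h
  · exact h
  · exact absurd h hψ0

end Key

/-! ### Maximality of the eigen-ideal and the support lemma -/

section Support

variable {ι : Type*} {Λ : Type*} [AddCommGroup Λ] {T : ι → Module.End ℤ Λ}

/-- `End_ℤ(Λ)` is a finitely generated `ℤ`-module for a finitely generated `Λ`. -/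
theorem finite_end_int (Λ : Type*) [AddCommGroup Λ] [Module.Finite ℤ Λ] :
    Module.Finite ℤ (Module.End ℤ Λ) := by
  obtain ⟨s, hs⟩ := (Module.Finite.fg_top : (⊤ : Submodule ℤ Λ).FG)
  let ev : Module.End ℤ Λ →ₗ[ℤ] (s → Λ) :=
    { toFun := fun f x => f x
      map_add' := fun _ _ => rfl
      map_smul' := fun _ _ => rfl }
  have hev : Function.Injective ev := by
    intro f g h
    refine LinearMap.ext_on hs fun x hx => ?_
    exact congrFun h ⟨x, hx⟩
  exact Module.Finite.of_injective ev hev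

theorem finite_quotient_ker_polyEval [Module.Finite ℤ Λ] (hT : ∀ i j, Commute (T i) (T j)) :
    Module.Finite ℤ (MvPolynomial ι ℤ ⧸ RingHom.ker (polyEval T hT)) := by
  haveI := finite_end_int Λ
  exact Module.Finite.of_injective
    (RingHom.kerLift (polyEval T hT)).toAddMonoidHom.toIntLinearMap
    (RingHom.kerLift_injective (polyEval T hT))

/-- **The eigen-ideal is maximal**: if the kernel of the action of `ℤ[X_i]` on a finitely
generated `Λ` is contained in the kernel of `X_i ↦ c_i ∈ k`, `k` a field in which `ℓ = 0`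
(`ℓ ≠ 0`), then the latter kernel is a maximal ideal (with finite residue field). -/
theorem isMaximal_ker_aeval_of_lattice [Module.Finite ℤ Λ] (hT : ∀ i j, Commute (T i) (T j))
    {k : Type*} [Field k] (c : ι → k) {ℓ : ℕ} (hℓ : ℓ ≠ 0) (hk : (ℓ : k) = 0)
    (hle : RingHom.ker (polyEval T hT) ≤
      RingHom.ker (MvPolynomial.aeval c : MvPolynomial ι ℤ →ₐ[ℤ] k)) :
    (RingHom.ker (MvPolynomial.aeval c : MvPolynomial ι ℤ →ₐ[ℤ] k)).IsMaximal := by
  set 𝔪 := RingHom.ker (MvPolynomial.aeval c : MvPolynomial ι ℤ →ₐ[ℤ] k) with h𝔪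
  haveI : 𝔪.IsPrime := RingHom.ker_isPrime _
  haveI := finite_quotient_ker_polyEval (T := T) hT
  haveI : Module.Finite ℤ (MvPolynomial ι ℤ ⧸ 𝔪) :=
    Module.Finite.of_surjective (Ideal.Quotient.factor hle).toAddMonoidHom.toIntLinearMap
      (Ideal.Quotient.factor_surjective hle)
  have hℓ𝔪 : ((ℓ : ℕ) : MvPolynomial ι ℤ) ∈ 𝔪 := by
    rw [h𝔪, RingHom.mem_ker, map_natCast, hk]
  haveI : Finite (MvPolynomial ι ℤ ⧸ 𝔪) := by
    apply Module.finite_of_fg_torsion
    intro x
    obtain ⟨y, rfl⟩ := Ideal.Quotient.mk_surjective x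
    refine ⟨⟨(ℓ : ℤ), mem_nonZeroDivisors_of_ne_zero (by exact_mod_cast hℓ)⟩, ?_⟩
    show ((ℓ : ℤ)) • (Ideal.Quotient.mk 𝔪 y) = 0
    rw [natCast_zsmul, ← map_nsmul, Ideal.Quotient.eq_zero_iff_mem, nsmul_eq_mul]
    exact Ideal.mul_mem_right _ _ hℓ𝔪
  exact Ideal.Quotient.maximal_of_isField _ (Finite.isField_of_domain _)

/-- **The lattice support lemma**, for an arbitrary index type of Hecke operators.

`Λ` is a finitely generated abelian group with commuting operators `T i`; `J` an abelian group with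
commuting operators `S i`; `ρ : Λ →+ J` has kernel `ℓ Λ` and intertwines `T i` with `S i`;
`e : Λ →+ V` intertwines `T i` with `ℂ`-linear operators `Tc i` on a complex vector space; `ψ ≠ 0`
is a common eigenvector of the `Tc i` in the span of `e (Λ)` with eigenvalues `a i ∈ 𝒪`;
`φ : 𝒪 →+* k` is a ring homomorphism to a field with `ℓ = 0`.  Then there is `x ≠ 0` in `J` with
`ℓ x = 0` which is killed by every polynomial in the `S i` vanishing at `X_i ↦ φ (a i)`. -/
theorem exists_eigen_torsion [Module.Finite ℤ Λ] (hT : ∀ i j, Commute (T i) (T j))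
    {J : Type*} [AddCommGroup J] {S : ι → Module.End ℤ J} (hS : ∀ i j, Commute (S i) (S j))
    {ℓ : ℕ} (hℓ : ℓ ≠ 0) (ρ : Λ →+ J) (hker : ∀ x : Λ, ρ x = 0 ↔ ∃ y : Λ, x = ℓ • y)
    (hρ : ∀ i x, ρ (T i x) = S i (ρ x))
    {V : Type*} [AddCommGroup V] [Module ℂ V] (e : Λ →+ V) (Tc : ι → V →ₗ[ℂ] V)
    (he : ∀ i x, e (T i x) = Tc i (e x))
    {ψ : V} (hψ0 : ψ ≠ 0) (hψspan : ψ ∈ Submodule.span ℂ (Set.range e)) (a : ι → ℂ)
    (hψ : ∀ i, Tc i ψ = a i • ψ)
    (𝒪 : Subring ℂ) (ha : ∀ i, a i ∈ 𝒪) {k : Type*} [Field k] (φ : 𝒪 →+* k)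
    (hk : (ℓ : k) = 0) :
    ∃ x : J, x ≠ 0 ∧ ℓ • x = 0 ∧ ∀ t : MvPolynomial ι ℤ,
      MvPolynomial.aeval (fun i => φ ⟨a i, ha i⟩) t = 0 → polyEval S hS t x = 0 := by
  set c : ι → k := fun i => φ ⟨a i, ha i⟩ with hc
  set 𝔪 := RingHom.ker (MvPolynomial.aeval c : MvPolynomial ι ℤ →ₐ[ℤ] k) with h𝔪
  -- the kernel of the action on `Λ` is contained in `𝔪`
  have hle : RingHom.ker (polyEval T hT) ≤ 𝔪 := by
    intro t ht
    rw [RingHom.mem_ker] at ht
    have h1 := aeval_eq_zero_of_polyEval_eq_zero hT e Tc he hψ0 hψspan a hψ t ht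
    set b : ι → 𝒪 := fun i => ⟨a i, ha i⟩ with hb
    have h2 : (𝒪.subtype : 𝒪 →+* ℂ) (MvPolynomial.aeval b t) = MvPolynomial.aeval a t := by
      have := MvPolynomial.comp_aeval (R := ℤ) b (𝒪.subtype.toIntAlgHom)
      exact congrArg (fun F : MvPolynomial ι ℤ →ₐ[ℤ] ℂ => F t) this
    have h3 : MvPolynomial.aeval b t = 0 := by
      apply Subtype.val_injective
      rw [← Subring.coe_subtype, h2, h1]
      rfl
    have h4 : φ (MvPolynomial.aeval b t) = MvPolynomial.aeval (fun i => φ (b i)) t := by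
      have := MvPolynomial.comp_aeval (R := ℤ) b (φ.toIntAlgHom)
      exact congrArg (fun F : MvPolynomial ι ℤ →ₐ[ℤ] k => F t) this
    rw [h𝔪, RingHom.mem_ker]
    show MvPolynomial.aeval (fun i => φ (b i)) t = 0
    rw [← h4, h3, map_zero]
  have hmax : 𝔪.IsMaximal := isMaximal_ker_aeval_of_lattice hT c hℓ hk hle
  have hℓ𝔪 : ((ℓ : ℕ) : MvPolynomial ι ℤ) ∈ 𝔪 := by
    rw [h𝔪, RingHom.mem_ker, map_natCast, hk]
  letI := polyModule T hT
  letI := polyModule S hS
  have hann : Module.annihilator (MvPolynomial ι ℤ) Λ ≤ 𝔪 := by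
    intro t ht
    exact hle ((mem_annihilator_polyModule_iff hT t).mp ht)
  have hne := torsionBySet_ne_bot_of_lattice (R := MvPolynomial ι ℤ) (Λ := Λ) (J := J) 𝔪 hmax ℓ hℓ
    hℓ𝔪 hann ρ (fun t x => map_polyEval hT hS ρ hρ t x) hker
  rw [Submodule.ne_bot_iff] at hne
  obtain ⟨x, hx, hx0⟩ := hne
  rw [Submodule.mem_torsionBySet_iff] at hx
  refine ⟨x, hx0, ?_, fun t ht => ?_⟩
  · have h1 := hx ⟨_, hℓ𝔪⟩
    have h2 : polyEval S hS ((ℓ : ℕ) : MvPolynomial ι ℤ) x = 0 := h1
    rw [map_natCast] at h2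
    simpa using h2
  · have htm : t ∈ 𝔪 := by rw [h𝔪, RingHom.mem_ker]; exact ht
    exact hx ⟨t, htm⟩

end Support

/-! ### The instance: the lattice of integral parabolic homomorphisms of `Γ` -/

section Parabolic

variable {Γ : Subgroup SL(2, ℤ)} {ι : Type*}

/-- the inclusion of the lattice `LamOf Γ` in `Hom(Γ, ℂ)` -/
def lamToC (Γ : Subgroup SL(2, ℤ)) : ↥(LamOf Γ) →+ (Additive ↥Γ →+ ℂ) :=
  (castHomOf Γ).comp (LamOf Γ).subtype.toAddMonoidHom

@[simp] theorem lamToC_apply (l : ↥(LamOf Γ)) :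
    lamToC Γ l = castHomOf Γ (l : Additive ↥Γ →+ ℤ) := rfl

/-- an element of `LamOf Γ` divisible by every positive integer is zero -/
theorem eq_zero_of_forall_dvd_LamOf (x : ↥(LamOf Γ))
    (h : ∀ m : ℕ, 0 < m → ∃ y : ↥(LamOf Γ), x = m • y) : x = 0 := by
  apply Subtype.ext
  refine AddMonoidHom.ext fun γ => ?_
  show (x : Additive ↥Γ →+ ℤ) γ = 0
  obtain ⟨y, hy⟩ := h (((x : Additive ↥Γ →+ ℤ) γ).natAbs + 1) (Nat.succ_pos _)
  have h1 : (x : Additive ↥Γ →+ ℤ) γ =
      ((((x : Additive ↥Γ →+ ℤ) γ).natAbs + 1 : ℕ) : ℤ) * (y : Additive ↥Γ →+ ℤ) γ := by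
    conv_lhs => rw [hy]
    rw [Submodule.coe_smul_of_tower, AddMonoidHom.smul_apply, nsmul_eq_mul]
  have h2 : ((((x : Additive ↥Γ →+ ℤ) γ).natAbs + 1 : ℕ) : ℤ) ∣ (x : Additive ↥Γ →+ ℤ) γ :=
    ⟨_, h1⟩
  refine Int.eq_zero_of_abs_lt_dvd h2 ?_
  rw [Int.abs_eq_natAbs]
  push_cast
  omega

/-- **Commutation on the lattice from commutation on `J`**: if for every `m ≥ 1` there is a map
`ρ : LamOf Γ →+ J` with kernel `m • LamOf Γ` intertwining the `T i` with commuting operators `S i`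
of `J`, then the `T i` commute. -/
theorem commute_of_kummerMaps {T : ι → Module.End ℤ ↥(LamOf Γ)}
    {J : Type*} [AddCommGroup J] {S : ι → Module.End ℤ J} (hS : ∀ i j, Commute (S i) (S j))
    (hK : ∀ m : ℕ, 0 < m → ∃ ρ : ↥(LamOf Γ) →+ J,
      (∀ x, ρ x = 0 ↔ ∃ y : ↥(LamOf Γ), x = m • y) ∧ ∀ i x, ρ (T i x) = S i (ρ x))
    (i j : ι) : Commute (T i) (T j) := by
  refine LinearMap.ext fun x => ?_
  rw [← sub_eq_zero]
  refine eq_zero_of_forall_dvd_LamOf _ fun m hm => ?_
  obtain ⟨ρ, hker, hρ⟩ := hK m hm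
  rw [← hker, map_sub, Module.End.mul_apply, Module.End.mul_apply, hρ, hρ, hρ, hρ, sub_eq_zero]
  have := congrArg (fun F : Module.End ℤ J => F (ρ x)) (hS i j)
  simpa [Module.End.mul_apply] using this

/-- **The support lemma for parabolic eigenvectors.** `Γ ≤ SL(2,ℤ)` of finite index, `T i`
commuting operators on `LamOf Γ` compatible with `ℂ`-linear operators `Tc i` on `Hom(Γ, ℂ)`;
`ψ ≠ 0` a parabolic homomorphism `Γ → ℂ` with `Tc i ψ = a i • ψ`, `a i ∈ 𝒪`; `ρ : LamOf Γ →+ J`
with kernel `ℓ • LamOf Γ` intertwining `T i` with commuting `S i`; `φ : 𝒪 →+* k`, `ℓ = 0` in `k`.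
Then there is `x ≠ 0` in `J[ℓ]` killed by the eigen-ideal of `(φ (a i))`. -/
theorem exists_eigen_torsion_of_parabolic [Γ.FiniteIndex] {T : ι → Module.End ℤ ↥(LamOf Γ)}
    (hT : ∀ i j, Commute (T i) (T j))
    {J : Type*} [AddCommGroup J] {S : ι → Module.End ℤ J} (hS : ∀ i j, Commute (S i) (S j))
    {ℓ : ℕ} (hℓ : ℓ ≠ 0) (ρ : ↥(LamOf Γ) →+ J)
    (hker : ∀ x, ρ x = 0 ↔ ∃ y : ↥(LamOf Γ), x = ℓ • y) (hρ : ∀ i x, ρ (T i x) = S i (ρ x))
    (Tc : ι → (Additive ↥Γ →+ ℂ) →ₗ[ℂ] (Additive ↥Γ →+ ℂ))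
    (hcast : ∀ i (l : ↥(LamOf Γ)), castHomOf Γ ((T i l : ↥(LamOf Γ)) : Additive ↥Γ →+ ℤ) =
      Tc i (castHomOf Γ (l : Additive ↥Γ →+ ℤ)))
    {ψ : Additive ↥Γ →+ ℂ} (hψ0 : ψ ≠ 0) (hψpar : IsParabolicHom Γ ψ) (a : ι → ℂ)
    (hψ : ∀ i, Tc i ψ = a i • ψ)
    (𝒪 : Subring ℂ) (ha : ∀ i, a i ∈ 𝒪) {k : Type*} [Field k] (φ : 𝒪 →+* k)
    (hk : (ℓ : k) = 0) :
    ∃ x : J, x ≠ 0 ∧ ℓ • x = 0 ∧ ∀ t : MvPolynomial ι ℤ,
      MvPolynomial.aeval (fun i => φ ⟨a i, ha i⟩) t = 0 → polyEval S hS t x = 0 := by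
  haveI := finite_LamOf Γ
  refine exists_eigen_torsion hT hS hℓ ρ hker hρ (lamToC Γ) Tc (fun i x => hcast i x) hψ0 ?_ a hψ
    𝒪 ha φ hk
  obtain ⟨n, c, l, hsum⟩ := exists_eq_sum_castHomOf hψpar
  rw [hsum]
  refine Submodule.sum_mem _ fun k _ => Submodule.smul_mem _ _ (Submodule.subset_span ⟨l k, rfl⟩)

end Parabolic

end Fermat.Agent.DS.Kum
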